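/-
S55 (Poitou-Tate), block F2 / F1(j): definitions for the duality theorems.

* `EHomOn V ρ σ`  : `V`-equivariant `k`-linear maps `(A,ρ) → (B,σ)`  (a submodule of `A →ₗ[k] B`);
* `mapH2 L V ρ σ`, `mapH3 L V ρ σ` : functoriality of `H²`, `H³` in the coefficients, LINEAR in the map;
* `alpha L V σ tr ρ : EHomOn V ρ σ →ₗ Dual (H2 L V ρ)`, `φ ↦ tr ∘ φ_*`;
* `piRep`, `Jrep L D c` (`J = ∏ᵢ coind L (D i) c`), `Jincl : c → J`, `Jev i : J → c` (evaluation at `1`
  of the `i`-th component, `D i`-equivariant), `Wrep L D c hc` (`W = J / c`), `Wpi : J → W`.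
-/
import Fermat.Agent.PT.Coh.Coind
import Fermat.Agent.PT.Coh.Pair

set_option autoImplicit false
set_option maxHeartbeats 400000

namespace Fermat.Agent.PT

section EHomOn

variable {k G A B C : Type*} [CommRing k] [Group G] [AddCommGroup A] [Module k A]
  [AddCommGroup B] [Module k B] [AddCommGroup C] [Module k C]

/-- `V`-equivariant `k`-linear maps from `(A, ρ)` to `(B, σ)`. -/
def EHomOn (V : Subgroup G) (ρ : Representation k G A) (σ : Representation k G B) :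
    Submodule k (A →ₗ[k] B) where
  carrier := {φ | ∀ v ∈ V, ∀ a, φ (ρ v a) = σ v (φ a)}
  add_mem' := by
    intro φ ψ hφ hψ v hv a
    simp [hφ v hv a, hψ v hv a]
  zero_mem' := by intro v _ a; simp
  smul_mem' := by
    intro c φ hφ v hv a
    simp [hφ v hv a]

variable {V : Subgroup G} {ρ : Representation k G A} {σ : Representation k G B}
  {τ : Representation k G C}

lemma mem_EHomOn {φ : A →ₗ[k] B} :
    φ ∈ EHomOn V ρ σ ↔ ∀ v ∈ V, ∀ a, φ (ρ v a) = σ v (φ a) := Iff.rfl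

lemma mem_EHomOn_top {φ : A →ₗ[k] B} :
    φ ∈ EHomOn ⊤ ρ σ ↔ ∀ g a, φ (ρ g a) = σ g (φ a) :=
  ⟨fun h g a => h g trivial a, fun h g _ a => h g a⟩

lemma EHom.on {φ : A →ₗ[k] B} (h : φ ∈ EHom ρ σ) (V : Subgroup G) : φ ∈ EHomOn V ρ σ :=
  fun v _ a => h v a

lemma EHomOn.mono {V' : Subgroup G} (hV : V' ≤ V) {φ : A →ₗ[k] B} (h : φ ∈ EHomOn V ρ σ) :
    φ ∈ EHomOn V' ρ σ := fun v hv a => h v (hV hv) a

lemma EHomOn.comp_mem {φ : A →ₗ[k] B} {ψ : B →ₗ[k] C}
    (hψ : ψ ∈ EHomOn V σ τ) (hφ : φ ∈ EHomOn V ρ σ) : ψ ∘ₗ φ ∈ EHomOn V ρ τ := by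
  intro v hv a
  simp [hφ v hv a, hψ v hv (φ a)]

lemma EHomOn.id_mem (V : Subgroup G) (ρ : Representation k G A) :
    LinearMap.id ∈ EHomOn V ρ ρ := fun _ _ _ => rfl

/-- Post-composition with an equivariant map, as a linear map `EHomOn V ρ σ → EHomOn V ρ τ`. -/
def EHomOn.postcomp (ρ : Representation k G A) {ψ : B →ₗ[k] C} (hψ : ψ ∈ EHomOn V σ τ) :
    EHomOn V ρ σ →ₗ[k] EHomOn V ρ τ where
  toFun φ := ⟨ψ ∘ₗ φ.1, EHomOn.comp_mem hψ φ.2⟩
  map_add' φ φ' := by ext a; simp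
  map_smul' c φ := by ext a; simp

/-- Pre-composition with an equivariant map, as a linear map `EHomOn V σ τ → EHomOn V ρ τ`. -/
def EHomOn.precomp (τ : Representation k G C) {φ : A →ₗ[k] B} (hφ : φ ∈ EHomOn V ρ σ) :
    EHomOn V σ τ →ₗ[k] EHomOn V ρ τ where
  toFun ψ := ⟨ψ.1 ∘ₗ φ, EHomOn.comp_mem ψ.2 hφ⟩
  map_add' ψ ψ' := by ext a; simp
  map_smul' c ψ := by ext a; simp

@[simp] lemma EHomOn.postcomp_coe (ρ : Representation k G A) {ψ : B →ₗ[k] C}
    (hψ : ψ ∈ EHomOn V σ τ) (φ : EHomOn V ρ σ) :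
    (EHomOn.postcomp ρ hψ φ : A →ₗ[k] C) = ψ ∘ₗ φ.1 := rfl

@[simp] lemma EHomOn.precomp_coe (τ : Representation k G C) {φ : A →ₗ[k] B}
    (hφ : φ ∈ EHomOn V ρ σ) (ψ : EHomOn V σ τ) :
    (EHomOn.precomp τ hφ ψ : A →ₗ[k] C) = ψ.1 ∘ₗ φ := rfl

/-- `H²` of a `V`-equivariant coefficient map, linear in the map. -/
def mapH2 (L : LevelSystem G) (V : Subgroup G) (ρ : Representation k G A)
    (σ : Representation k G B) : EHomOn V ρ σ →ₗ[k] (H2 L V ρ →ₗ[k] H2 L V σ) where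
  toFun φ := (mapC L V φ.2).H2
  map_add' φ ψ := by
    apply LinearMap.ext; intro x; obtain ⟨z, rfl⟩ := H2.mk_surjective L V ρ x
    rfl
  map_smul' c φ := by
    apply LinearMap.ext; intro x; obtain ⟨z, rfl⟩ := H2.mk_surjective L V ρ x
    rfl

/-- `H³` of a `V`-equivariant coefficient map, linear in the map. -/
def mapH3 (L : LevelSystem G) (V : Subgroup G) (ρ : Representation k G A)
    (σ : Representation k G B) : EHomOn V ρ σ →ₗ[k] (H3 L V ρ →ₗ[k] H3 L V σ) where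
  toFun φ := (mapC L V φ.2).H3
  map_add' φ ψ := by
    apply LinearMap.ext; intro x; obtain ⟨z, rfl⟩ := H3.mk_surjective L V ρ x
    rfl
  map_smul' c φ := by
    apply LinearMap.ext; intro x; obtain ⟨z, rfl⟩ := H3.mk_surjective L V ρ x
    rfl

lemma mapH2_apply (L : LevelSystem G) (φ : EHomOn V ρ σ) :
    mapH2 L V ρ σ φ = (mapC L V φ.2).H2 := rfl
lemma mapH3_apply (L : LevelSystem G) (φ : EHomOn V ρ σ) :
    mapH3 L V ρ σ φ = (mapC L V φ.2).H3 := rfl

lemma mapH2_id (L : LevelSystem G) (x : H2 L V ρ) :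
    mapH2 L V ρ ρ ⟨LinearMap.id, EHomOn.id_mem V ρ⟩ x = x := by
  obtain ⟨z, rfl⟩ := H2.mk_surjective L V ρ x
  rfl

lemma mapH3_id (L : LevelSystem G) (x : H3 L V ρ) :
    mapH3 L V ρ ρ ⟨LinearMap.id, EHomOn.id_mem V ρ⟩ x = x := by
  obtain ⟨z, rfl⟩ := H3.mk_surjective L V ρ x
  rfl

lemma mapH2_comp (L : LevelSystem G) (ψ : EHomOn V σ τ) (φ : EHomOn V ρ σ) (x : H2 L V ρ) :
    mapH2 L V ρ τ ⟨ψ.1 ∘ₗ φ.1, EHomOn.comp_mem ψ.2 φ.2⟩ x
      = mapH2 L V σ τ ψ (mapH2 L V ρ σ φ x) := by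
  obtain ⟨z, rfl⟩ := H2.mk_surjective L V ρ x
  rfl

lemma mapH3_comp (L : LevelSystem G) (ψ : EHomOn V σ τ) (φ : EHomOn V ρ σ) (x : H3 L V ρ) :
    mapH3 L V ρ τ ⟨ψ.1 ∘ₗ φ.1, EHomOn.comp_mem ψ.2 φ.2⟩ x
      = mapH3 L V σ τ ψ (mapH3 L V ρ σ φ x) := by
  obtain ⟨z, rfl⟩ := H3.mk_surjective L V ρ x
  rfl

/-- The duality map `α_ρ : Hom_V(ρ, σ) → H²(V, ρ)^*`, `φ ↦ tr ∘ φ_*`. -/
def alpha (L : LevelSystem G) (V : Subgroup G) (σ : Representation k G B)
    (tr : H2 L V σ →ₗ[k] k) (ρ : Representation k G A) :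
    EHomOn V ρ σ →ₗ[k] Module.Dual k (H2 L V ρ) :=
  (LinearMap.llcomp k (H2 L V ρ) (H2 L V σ) k tr) ∘ₗ mapH2 L V ρ σ

@[simp] lemma alpha_apply (L : LevelSystem G) (tr : H2 L V σ →ₗ[k] k) (φ : EHomOn V ρ σ)
    (x : H2 L V ρ) : alpha L V σ tr ρ φ x = tr (mapH2 L V ρ σ φ x) := rfl

/-- Naturality of `alpha`. -/
lemma alpha_precomp (L : LevelSystem G) (tr : H2 L V τ →ₗ[k] k) (φ : EHomOn V ρ σ)
    (ψ : EHomOn V σ τ) (x : H2 L V ρ) :
    alpha L V τ tr ρ (EHomOn.precomp τ φ.2 ψ) x = alpha L V τ tr σ ψ (mapH2 L V ρ σ φ x) := by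
  simp only [alpha_apply]
  exact congrArg tr (mapH2_comp L ψ φ x)

end EHomOn

section JW

variable {k G C : Type*} [CommRing k] [Group G] [AddCommGroup C] [Module k C] {ι : Type*}

/-- The product of a family of representations. -/
def piRep {B : ι → Type*} [∀ i, AddCommGroup (B i)] [∀ i, Module k (B i)]
    (σ : ∀ i, Representation k G (B i)) : Representation k G (∀ i, B i) where
  toFun g := LinearMap.pi fun i => σ i g ∘ₗ LinearMap.proj i
  map_one' := by ext; simp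
  map_mul' g h := by ext; simp

@[simp] lemma piRep_apply {B : ι → Type*} [∀ i, AddCommGroup (B i)] [∀ i, Module k (B i)]
    (σ : ∀ i, Representation k G (B i)) (g : G) (x : ∀ i, B i) (i : ι) :
    piRep σ g x i = σ i g (x i) := rfl

lemma isSmoothRep_piRep [Finite ι] {B : ι → Type*} [∀ i, AddCommGroup (B i)]
    [∀ i, Module k (B i)] (L : LevelSystem G) (σ : ∀ i, Representation k G (B i))
    (h : ∀ i, IsSmoothRep L (σ i)) : IsSmoothRep L (piRep σ) := by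
  intro x
  choose U hU hfix using fun i => h i (x i)
  have key : ∀ s : Finset ι, ∃ W ∈ L, ∀ i ∈ s, W ≤ U i := by
    classical
    intro s
    induction s using Finset.induction_on with
    | empty =>
      obtain ⟨W, hW⟩ := L.nonempty'
      exact ⟨W, hW, by simp⟩
    | insert a s _ ih =>
      obtain ⟨W, hW, hle⟩ := ih
      obtain ⟨W', hW', h1, h2⟩ := L.directed' W hW (U a) (hU a)
      refine ⟨W', hW', fun i hi => ?_⟩
      rcases Finset.mem_insert.1 hi with rfl | hi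
      · exact h2
      · exact h1.trans (hle i hi)
  cases nonempty_fintype ι
  obtain ⟨W, hW, hle⟩ := key Finset.univ
  refine ⟨W, hW, fun u hu => ?_⟩
  funext i
  exact hfix i u (hle i (Finset.mem_univ i) hu)

variable (L : LevelSystem G) (D : ι → Subgroup G) (c : Representation k G C)

/-- `J = ∏ᵢ coind L (D i) c`. -/
def Jrep : Representation k G (∀ i, X0 L (D i) c) := piRep fun i => coind L (D i) c

@[simp] lemma Jrep_apply_coe (g : G) (x : ∀ i, X0 L (D i) c) (i : ι) (y : G) :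
    (Jrep L D c g x i : G → C) y = (x i : G → C) (y * g) := rfl

lemma isSmoothRep_Jrep [Finite ι] : IsSmoothRep L (Jrep L D c) :=
  isSmoothRep_piRep L _ fun i => isSmoothRep_coind L (D i) c

/-- The diagonal embedding `c → J`, `a ↦ (x ↦ c x a)ᵢ`. -/
def Jincl (hc : IsSmoothRep L c) : C →ₗ[k] (∀ i, X0 L (D i) c) :=
  LinearMap.pi fun i => coindConst L (D i) c hc

@[simp] lemma Jincl_apply_coe (hc : IsSmoothRep L c) (a : C) (i : ι) (y : G) :
    (Jincl L D c hc a i : G → C) y = c y a := rfl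

lemma Jincl_mem (hc : IsSmoothRep L c) (V : Subgroup G) :
    Jincl L D c hc ∈ EHomOn V c (Jrep L D c) := by
  intro g _ a
  funext i
  exact coindConst_mem_EHom L (D i) c hc g a

/-- Evaluation at `1` of the `i`-th component, `J → c`; it is `D i`-equivariant. -/
def Jev (i : ι) : (∀ i, X0 L (D i) c) →ₗ[k] C := coindEv L (D i) c ∘ₗ LinearMap.proj i

@[simp] lemma Jev_apply (i : ι) (x : ∀ i, X0 L (D i) c) : Jev L D c i x = (x i : G → C) 1 := rfl

lemma Jev_mem (i : ι) : Jev L D c i ∈ EHomOn (D i) (Jrep L D c) c := by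
  intro v hv x
  exact coindEv_equivariant L (D i) c v hv (x i)

lemma Jev_Jincl (hc : IsSmoothRep L c) (i : ι) (a : C) :
    Jev L D c i (Jincl L D c hc a) = a := by simp

lemma range_Jincl_le_comap (hc : IsSmoothRep L c) (g : G) :
    LinearMap.range (Jincl L D c hc) ≤ (LinearMap.range (Jincl L D c hc)).comap (Jrep L D c g) := by
  rintro _ ⟨a, rfl⟩
  exact ⟨c g a, Jincl_mem L D c hc ⊤ g trivial a⟩

/-- `W = J / c`. -/
def Wrep (hc : IsSmoothRep L c) :
    Representation k G ((∀ i, X0 L (D i) c) ⧸ LinearMap.range (Jincl L D c hc)) :=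
  (Jrep L D c).quotient _ (range_Jincl_le_comap L D c hc)

/-- The projection `J → W`. -/
def Wpi (hc : IsSmoothRep L c) :
    (∀ i, X0 L (D i) c) →ₗ[k] ((∀ i, X0 L (D i) c) ⧸ LinearMap.range (Jincl L D c hc)) :=
  Submodule.mkQ _

lemma Wpi_surjective (hc : IsSmoothRep L c) : Function.Surjective (Wpi L D c hc) :=
  Submodule.mkQ_surjective _

lemma ker_Wpi (hc : IsSmoothRep L c) :
    LinearMap.ker (Wpi L D c hc) = LinearMap.range (Jincl L D c hc) :=
  Submodule.ker_mkQ _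

lemma Wpi_mem (hc : IsSmoothRep L c) (V : Subgroup G) :
    Wpi L D c hc ∈ EHomOn V (Jrep L D c) (Wrep L D c hc) := fun _ _ _ => rfl

lemma isSmoothRep_Wrep [Finite ι] (hc : IsSmoothRep L c) : IsSmoothRep L (Wrep L D c hc) := by
  intro w
  obtain ⟨x, rfl⟩ := Wpi_surjective L D c hc w
  obtain ⟨U, hU, h⟩ := isSmoothRep_Jrep L D c x
  exact ⟨U, hU, fun u hu => by
    rw [← Wpi_mem L D c hc ⊤ u trivial x, h u hu]⟩

end JW

end Fermat.Agent.PT
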