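/-
S55 (Poitou-Tate), F1(j), step (a) of the abstract duality theorem: injectivity of `alpha`.
-/
import Fermat.Agent.PT.Duality.Defs
import Fermat.Agent.PT.Coh.Shapiro

set_option autoImplicit false
set_option maxHeartbeats 400000

namespace Fermat.Agent.PT

/-- The trivial representation of `G` on `k`. -/
abbrev trivK (k G : Type*) [CommRing k] [Group G] : Representation k G k :=
  Representation.trivial k G k

variable {k : Type*} [CommRing k] {G : Type*} [Group G]
variable {A W : Type*} [AddCommGroup A] [Module k A] [AddCommGroup W] [Module k W]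

/-- An open subgroup has finitely many cosets. -/
theorem finite_cosetsIn_of_isOpen {L : LevelSystem G} {V : Subgroup G} (hV : L.IsOpen V) :
    Finite (CosetsIn (⊤ : Subgroup G) V) := by
  obtain ⟨U, hU, hUV⟩ := hV
  have hfU : U.FiniteIndex := L.finiteIndex' U hU
  have hfV : V.FiniteIndex := Subgroup.finiteIndex_of_le hUV
  apply Nat.finite_of_card_ne_zero
  have h1 : Nat.card (CosetsIn (⊤ : Subgroup G) V) = V.relIndex ⊤ := rfl
  rw [h1, Subgroup.relIndex_top_right]
  exact hfV.index_ne_zero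

/-- multiplication of scalar functions by a `V`-fixed vector. -/
def Inj_mulm (L : LevelSystem G) (V : Subgroup G) (ρ : Representation k G A) (m : A)
    (hm : ∀ v ∈ V, ρ v m = m) : X0 L V (trivK k G) →ₗ[k] X0 L V ρ where
  toFun F := ⟨fun x => (F : G → k) x • m, by
    obtain ⟨he, U, hU, hs⟩ := F.2
    refine ⟨fun v hv x => ?_, U, hU, fun x u hu => ?_⟩
    · have h1 : (F : G → k) (v * x) = (F : G → k) x := he v hv x
      change (F : G → k) (v * x) • m = ρ v ((F : G → k) x • m)
      rw [h1, map_smul, hm v hv]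
    · change (F : G → k) (x * u) • m = (F : G → k) x • m
      rw [hs x u hu]⟩
  map_add' F F' := by
    ext x
    exact add_smul _ _ _
  map_smul' c F := by
    ext x
    exact mul_smul _ _ _

lemma Inj_mulm_apply_coe (L : LevelSystem G) (V : Subgroup G) (ρ : Representation k G A) (m : A)
    (hm : ∀ v ∈ V, ρ v m = m) (F : X0 L V (trivK k G)) (x : G) :
    (Inj_mulm L V ρ m hm F : G → A) x = (F : G → k) x • m := rfl

open Classical in
/-- the indicator function of `V`. -/
noncomputable def Inj_ind (L : LevelSystem G) (V : Subgroup G) (hV : L.IsOpen V) : X0 L V (trivK k G) :=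
  ⟨fun x => if x ∈ V then 1 else 0, by
    obtain ⟨U, hU, hUV⟩ := hV
    refine ⟨fun v hv x => ?_, U, hU, fun x u hu => ?_⟩
    · have h1 : v * x ∈ V ↔ x ∈ V := Subgroup.mul_mem_cancel_left V hv
      simp only [h1]
      rfl
    · have h1 : x * u ∈ V ↔ x ∈ V := Subgroup.mul_mem_cancel_right V (hUV hu)
      simp only [h1]⟩

open Classical in
lemma Inj_ind_apply_coe (L : LevelSystem G) (V : Subgroup G) (hV : L.IsOpen V) (x : G) :
    (Inj_ind (k := k) L V hV : G → k) x = if x ∈ V then 1 else 0 := rfl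

lemma Inj_rep_mem_iff (V : Subgroup G) (q : CosetsIn (⊤ : Subgroup G) V) :
    q.rep ∈ V ↔ q = QuotientGroup.mk 1 := by
  have h1 : (QuotientGroup.mk (Quotient.out q : (⊤ : Subgroup G)) : CosetsIn (⊤ : Subgroup G) V) = q :=
    QuotientGroup.out_eq' q
  constructor
  · intro h
    rw [← h1, eq_comm, QuotientGroup.eq, Subgroup.mem_subgroupOf]
    simpa [CosetsIn.rep] using h
  · intro h
    rw [← h1, eq_comm, QuotientGroup.eq, Subgroup.mem_subgroupOf] at h
    simpa [CosetsIn.rep] using h

/-- For `m` fixed by the open subgroup `V` there is an equivariant map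
`ψ : coind L V triv → ρ`, `F ↦ ∑_{c ∈ G/V} F(c⁻¹) • ρ c m`, and `F` (the indicator function of `V`)
with `ψ F = m`.
(`ψ = coindTrace L V ρ ∘ (F ↦ (x ↦ F x • m))`.) -/
theorem exists_psi_coind (L : LevelSystem G) (V : Subgroup G) (hV : L.IsOpen V)
    (ρ : Representation k G A) (m : A) (hm : ∀ v ∈ V, ρ v m = m) :
    ∃ (ψ : EHomOn ⊤ (coind L V (trivK k G)) ρ) (F : X0 L V (trivK k G)), ψ.1 F = m := by
  classical
  have hfin := finite_cosetsIn_of_isOpen hV
  let _ := Fintype.ofFinite (CosetsIn (⊤ : Subgroup G) V)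
  refine ⟨⟨coindTrace L V ρ ∘ₗ Inj_mulm L V ρ m hm, ?_⟩, Inj_ind L V hV, ?_⟩
  · intro g _ F
    have h1 : Inj_mulm L V ρ m hm (coind L V (trivK k G) g F)
        = coind L V ρ g (Inj_mulm L V ρ m hm F) := by
      ext x
      rfl
    rw [LinearMap.comp_apply, h1, coindTrace_mem_EHom L V ρ g, LinearMap.comp_apply]
  · change coindTrace L V ρ (Inj_mulm L V ρ m hm (Inj_ind L V hV)) = m
    rw [shapiro_coindTrace_apply]
    rw [Finset.sum_eq_single (QuotientGroup.mk 1 : CosetsIn (⊤ : Subgroup G) V)]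
    · have h1 : CosetsIn.rep (QuotientGroup.mk 1 : CosetsIn (⊤ : Subgroup G) V) ∈ V :=
        (Inj_rep_mem_iff V _).2 rfl
      rw [Inj_mulm_apply_coe, Inj_ind_apply_coe, if_pos (V.inv_mem h1), one_smul, hm _ h1]
    · intro q _ hq
      have h1 : (CosetsIn.rep q)⁻¹ ∉ V := by
        intro h
        exact hq ((Inj_rep_mem_iff V q).1 (by simpa using V.inv_mem h))
      rw [Inj_mulm_apply_coe, Inj_ind_apply_coe, if_neg h1, zero_smul, map_zero]
    · intro h
      exact absurd (Finset.mem_univ _) h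

/-- Step (a): if `alpha` is injective on `coind L V triv` for all small open `V`, it is injective
on every smooth representation. -/
theorem alpha_injective (L : LevelSystem G) (σ : Representation k G W)
    (tr : H2 L ⊤ σ →ₗ[k] k) (G1 : Subgroup G) (hG1 : L.IsOpen G1)
    (hbase : ∀ V : Subgroup G, L.IsOpen V → V ≤ G1 →
      Function.Injective (alpha L ⊤ σ tr (coind L V (trivK k G))))
    (ρ : Representation k G A) (hρ : IsSmoothRep L ρ) :
    Function.Injective (alpha L ⊤ σ tr ρ) := by
  rw [injective_iff_map_eq_zero]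
  intro φ hφ
  ext m
  obtain ⟨U, hU, hfix⟩ := hρ m
  obtain ⟨U1, hU1, hle1⟩ := hG1
  obtain ⟨V, hV, hVU, hVU1⟩ := L.directed' U hU U1 hU1
  obtain ⟨ψ, F, rfl⟩ := exists_psi_coind L V ⟨V, hV, le_rfl⟩ ρ m (fun v hv => hfix v (hVU hv))
  have h0 : EHomOn.precomp σ ψ.2 φ = 0 := by
    apply hbase V ⟨V, hV, le_rfl⟩ (hVU1.trans hle1)
    rw [map_zero]
    apply LinearMap.ext
    intro x
    rw [alpha_precomp, hφ]
    rfl
  have := congrArg (fun f : EHomOn ⊤ (coind L V (trivK k G)) σ => f.1 F) h0
  simpa using this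

end Fermat.Agent.PT
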