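/-
S55 (Poitou-Tate), block F2: the concrete modules `J`, `W` over `GQ`, and the CONTRACTS consumed by
the final assembly (`def ...Statement : Prop`, sorry-free).
-/
import Fermat.Agent.PT.Duality.Defs
import Fermat.Agent.PT.Bridge.GalLevels
import Fermat.Agent.PT.Global.Interface

set_option autoImplicit false
set_option maxHeartbeats 400000

open ExtCitation

noncomputable section

namespace Fermat.Agent.PT

variable (p : ℕ) [Fact p.Prime] (S : Finset Nat.Primes)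

/-- The family of decomposition groups `Dec (primeLocalPlace ℓ)`, `ℓ ∈ S`. -/
abbrev DS : ↥S → Subgroup GQ := fun ℓ => Dl ℓ.1

/-- `J = ∏_{ℓ ∈ S} coind (LS S) (Dl ℓ) (cycRep p)`. -/
abbrev JQ : Representation (ZMod p) GQ (∀ ℓ : ↥S, X0 (LS S) (DS S ℓ) (cycRep p)) :=
  Jrep (LS S) (DS S) (cycRep p)

variable {S} in
/-- `W = J / F_p(1)`. -/
abbrev WQ (hpS : pPrime p ∈ S) := Wrep (LS S) (DS S) (cycRep p) (isSmoothRep_cycRep hpS)

variable {S} in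
/-- `π : J → W`, as an element of `EHomOn ⊤`. -/
def piQ (hpS : pPrime p ∈ S) : EHomOn ⊤ (JQ p S) (WQ p hpS) :=
  ⟨Wpi (LS S) (DS S) (cycRep p) (isSmoothRep_cycRep hpS), Wpi_mem _ _ _ _ ⊤⟩

/-- `ev_ℓ : J → F_p(1)`, as an element of `EHomOn (⊤ ⊓ Dl ℓ)`. -/
def evQ (ℓ : ↥S) : EHomOn (⊤ ⊓ Dl ℓ.1) (JQ p S) (cycRep p) :=
  ⟨Jev (LS S) (DS S) (cycRep p) ℓ, EHomOn.mono inf_le_right (Jev_mem _ _ _ ℓ)⟩

/-- The local functionals at the primes of `S`. -/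
abbrev LocalFunctionals : Type :=
  ∀ ℓ : ↥S, H2 Lall (⊤ ⊓ Dl ℓ.1) (cycRep p) →ₗ[ZMod p] ZMod p

variable {p S}

/-- (TR) `tr (π_* y) = ∑_ℓ lam ℓ ((ev_ℓ)_* (loc_ℓ y))` for `y ∈ H²_S(J)`. -/
def IsTrace (hpS : pPrime p ∈ S) (lam : LocalFunctionals p S)
    (tr : H2 (LS S) ⊤ (WQ p hpS) →ₗ[ZMod p] ZMod p) : Prop :=
  ∀ y : H2 (LS S) ⊤ (JQ p S),
    tr (mapH2 (LS S) ⊤ (JQ p S) (WQ p hpS) (piQ p hpS) y) =
      ∑ ℓ : ↥S, lam ℓ (mapH2 Lall (⊤ ⊓ Dl ℓ.1) (JQ p S) (cycRep p) (evQ p S ℓ)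
        (loc2 S ⊤ (JQ p S) (primeLocalPlace ℓ.1) y))

/-- (BASE), block G: for the functionals `lam` and ANY trace `tr`, the duality map is bijective on
`coind (LS S) V triv` for all `S`-open `V ≤ G1 p`. -/
def BaseStatement (hpS : pPrime p ∈ S) (lam : LocalFunctionals p S) : Prop :=
  ∀ tr : H2 (LS S) ⊤ (WQ p hpS) →ₗ[ZMod p] ZMod p, IsTrace hpS lam tr →
    ∀ V : Subgroup GQ, (LS S).IsOpen V → V ≤ G1 p →
      Function.Bijective (alpha (LS S) ⊤ (WQ p hpS) tr (coind (LS S) V (trivRep p)))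

/-- (REC) reciprocity: `∑_ℓ lam ℓ (loc_ℓ x) = 0` for `x ∈ H²_S(F_p(1))`
(this is what makes a trace `tr` exist). -/
def ReciprocityStatement (lam : LocalFunctionals p S) : Prop :=
  ∀ x : H2 (LS S) ⊤ (cycRep p), ∑ ℓ : ↥S, lam ℓ (loc2 S ⊤ (cycRep p) (primeLocalPlace ℓ.1) x) = 0

/-- (LOC), block L: local duality (only surjectivity is used): every linear form on
`H²(D_ℓ, M)` is `lam ℓ ∘ ψ_*` for a `D_ℓ`-equivariant `ψ : M → F_p(1)`; `M` finite, smooth. -/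
def LocalDualityStatement (lam : LocalFunctionals p S) : Prop :=
  ∀ (ℓ : ↥S) (A : Type) [AddCommGroup A] [Module (ZMod p) A] [Module.Finite (ZMod p) A]
    (ρ : Representation (ZMod p) GQ A), IsSmoothRep Lall ρ →
      Function.Surjective (alpha Lall (⊤ ⊓ Dl ℓ.1) (cycRep p) (lam ℓ) ρ)

end Fermat.Agent.PT

end
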