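/-
S55 (Poitou-Tate), F1(j): the duality map `alpha` and finite direct sums; surjectivity of `H²(N)`
by duality.
-/
import Fermat.Agent.PT.Duality.Defs

set_option autoImplicit false
set_option maxHeartbeats 400000

namespace Fermat.Agent.PT

variable {k : Type*} [CommRing k] {G : Type*} [Group G]
variable {A W : Type*} [AddCommGroup A] [Module k A] [AddCommGroup W] [Module k W]
variable {ι : Type*} [Fintype ι] {Aj : ι → Type*} [∀ j, AddCommGroup (Aj j)]
  [∀ j, Module k (Aj j)]

theorem alpha_injective_of_sum (L : LevelSystem G) (V : Subgroup G) (σ : Representation k G W)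
    (tr : H2 L V σ →ₗ[k] k) (ρ : Representation k G A) (ρj : ∀ j, Representation k G (Aj j))
    (inj : ∀ j, EHomOn V (ρj j) ρ) (prj : ∀ j, EHomOn V ρ (ρj j))
    (hsum : ∑ j, (inj j).1 ∘ₗ (prj j).1 = LinearMap.id)
    (h : ∀ j, Function.Injective (alpha L V σ tr (ρj j))) :
    Function.Injective (alpha L V σ tr ρ) := by
  rw [injective_iff_map_eq_zero]
  intro φ hφ
  have h1 : ∀ j, EHomOn.precomp σ (inj j).2 φ = 0 := by
    intro j
    apply h j
    rw [map_zero]
    apply LinearMap.ext
    intro x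
    rw [alpha_precomp, hφ]
    rfl
  ext a
  have ha : a = ∑ j, (inj j).1 ((prj j).1 a) := by
    have := congrArg (fun f => f a) hsum
    simpa using this.symm
  rw [ha, map_sum]
  simp only [Submodule.coe_zero, LinearMap.zero_apply]
  refine Finset.sum_eq_zero fun j _ => ?_
  have := congrArg (fun f : EHomOn V (ρj j) σ => f.1 ((prj j).1 a)) (h1 j)
  simpa using this

theorem alpha_surjective_of_sum (L : LevelSystem G) (V : Subgroup G) (σ : Representation k G W)
    (tr : H2 L V σ →ₗ[k] k) (ρ : Representation k G A) (ρj : ∀ j, Representation k G (Aj j))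
    (inj : ∀ j, EHomOn V (ρj j) ρ) (prj : ∀ j, EHomOn V ρ (ρj j))
    (hsum : ∑ j, (inj j).1 ∘ₗ (prj j).1 = LinearMap.id)
    (h : ∀ j, Function.Surjective (alpha L V σ tr (ρj j))) :
    Function.Surjective (alpha L V σ tr ρ) := by
  intro τ
  choose φj hφj using fun j => h j (τ ∘ₗ mapH2 L V (ρj j) ρ (inj j))
  refine ⟨∑ j, EHomOn.precomp σ (prj j).2 (φj j), ?_⟩
  apply LinearMap.ext
  intro x
  rw [map_sum, LinearMap.sum_apply]
  simp only [alpha_precomp, hφj, LinearMap.comp_apply]
  rw [← map_sum]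
  congr 1
  simp only [← mapH2_comp]
  rw [← LinearMap.sum_apply, ← map_sum]
  have : (∑ j, (⟨(inj j).1 ∘ₗ (prj j).1, EHomOn.comp_mem (inj j).2 (prj j).2⟩ : EHomOn V ρ ρ))
      = ⟨LinearMap.id, EHomOn.id_mem V ρ⟩ := by
    apply Subtype.ext
    rw [Submodule.coe_sum]
    exact hsum
  rw [this, mapH2_id]

end Fermat.Agent.PT
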