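/-
S55 (Poitou-Tate), F1(j), step (d1) of the abstract duality theorem: `coind L U ρ` for `U` acting
trivially.
-/
import Fermat.Agent.PT.Duality.Sum
import Fermat.Agent.PT.Duality.Inj

set_option autoImplicit false
set_option maxHeartbeats 400000

namespace Fermat.Agent.PT

section Field

variable {k : Type*} [Field k] {G : Type*} [Group G]
variable {A W : Type*} [AddCommGroup A] [Module k A] [AddCommGroup W] [Module k W]

/-- `coind L V ρ` is finite-dimensional for `V` open and `A` finite-dimensional
(`F ↦ (q ↦ F q.out)`, `q` in the finite set of right cosets `V \ G`, is injective). -/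
theorem finite_X0 (L : LevelSystem G) (V : Subgroup G) (hV : L.IsOpen V)
    (ρ : Representation k G A) [Module.Finite k A] : Module.Finite k (X0 L V ρ) := by
  have hfin := finite_cosetsIn_of_isOpen hV
  let ev : X0 L V ρ →ₗ[k] (CosetsIn (⊤ : Subgroup G) V → A) :=
    { toFun := fun F q => (F : G → A) q.rep⁻¹
      map_add' := fun _ _ => rfl
      map_smul' := fun _ _ => rfl }
  have hev : Function.Injective ev := by
    rw [injective_iff_map_eq_zero]
    intro F hF
    ext x
    obtain ⟨q, hq, -⟩ := (isReps_rep (⊤ : Subgroup G) V).2 x⁻¹ trivial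
    have hq' : x * q.rep ∈ V := by
      have := V.inv_mem hq
      simpa using this
    have h1 : (F : G → A) q.rep⁻¹ = 0 := congrFun hF q
    have h2 := F.2.1 (x * q.rep) hq' q.rep⁻¹
    rw [mul_inv_cancel_right, h1, map_zero] at h2
    exact h2
  exact Module.Finite.of_injective ev hev

/-- composition of `F : G → A` with a linear form (for `U` acting trivially). -/
def CoindFin_coord (L : LevelSystem G) (U : Subgroup G) (ρ : Representation k G A)
    (hfix : ∀ u ∈ U, ∀ a, ρ u a = a) (f : A →ₗ[k] k) : X0 L U ρ →ₗ[k] X0 L U (trivK k G) where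
  toFun F := ⟨fun x => f ((F : G → A) x), by
    obtain ⟨he, U', hU', hs⟩ := F.2
    refine ⟨fun v hv x => ?_, U', hU', fun x u hu => ?_⟩
    · change f ((F : G → A) (v * x)) = f ((F : G → A) x)
      rw [he v hv x, hfix v hv]
    · change f ((F : G → A) (x * u)) = f ((F : G → A) x)
      rw [hs x u hu]⟩
  map_add' F F' := by
    ext x
    exact map_add f _ _
  map_smul' c F := by
    ext x
    exact map_smul f _ _

/-- If the open subgroup `U` acts trivially on the finite-dimensional `A`, then
`coind L U ρ ≅ (coind L U triv)^n`, so `alpha` is bijective on it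
(`alpha_injective_of_sum`, `alpha_surjective_of_sum` with a basis `b j` of `A`:
`prj j F = (b.coord j) ∘ F`, `inj j F = (x ↦ F x • b j)`). -/
theorem alpha_bijective_coind (L : LevelSystem G) (σ : Representation k G W)
    (tr : H2 L ⊤ σ →ₗ[k] k) (U : Subgroup G) (ρ : Representation k G A) [Module.Finite k A]
    (hfix : ∀ u ∈ U, ρ u = 1)
    (h : Function.Bijective (alpha L ⊤ σ tr (coind L U (trivK k G)))) :
    Function.Bijective (alpha L ⊤ σ tr (coind L U ρ)) := by
  classical
  let b := Module.finBasis k A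
  have hfix' : ∀ u ∈ U, ∀ a, ρ u a = a := fun u hu a => by rw [hfix u hu]; rfl
  let inj : ∀ _ : Fin (Module.finrank k A), EHomOn ⊤ (coind L U (trivK k G)) (coind L U ρ) :=
    fun j => ⟨Inj_mulm L U ρ (b j) (fun u hu => hfix' u hu _), fun g _ F => by
      ext x
      rfl⟩
  let prj : ∀ _ : Fin (Module.finrank k A), EHomOn ⊤ (coind L U ρ) (coind L U (trivK k G)) :=
    fun j => ⟨CoindFin_coord L U ρ hfix' (b.coord j), fun g _ F => by
      ext x
      rfl⟩
  have hsum : ∑ j, (inj j).1 ∘ₗ (prj j).1 = LinearMap.id := by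
    apply LinearMap.ext
    intro F
    ext x
    rw [LinearMap.sum_apply, Submodule.coe_sum, Finset.sum_apply]
    exact b.sum_repr ((F : G → A) x)
  exact ⟨alpha_injective_of_sum L ⊤ σ tr _ _ inj prj hsum (fun _ => h.1),
    alpha_surjective_of_sum L ⊤ σ tr _ _ inj prj hsum (fun _ => h.2)⟩

/-- The trace `coind L U ρ → ρ` is surjective if the open subgroup `U` acts trivially
(`m` is the trace of `x ↦ if x ∈ U then m else 0`). -/
theorem coindTrace_surjective (L : LevelSystem G) (U : Subgroup G) (hU : L.IsOpen U)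
    [Finite (CosetsIn (⊤ : Subgroup G) U)] (ρ : Representation k G A)
    (hfix : ∀ u ∈ U, ρ u = 1) : Function.Surjective (coindTrace L U ρ) := by
  classical
  intro m
  have hm : ∀ u ∈ U, ρ u m = m := fun u hu => by rw [hfix u hu]; rfl
  let _ := Fintype.ofFinite (CosetsIn (⊤ : Subgroup G) U)
  refine ⟨Inj_mulm L U ρ m hm (Inj_ind L U hU), ?_⟩
  rw [shapiro_coindTrace_apply]
  rw [Finset.sum_eq_single (QuotientGroup.mk 1 : CosetsIn (⊤ : Subgroup G) U)]
  · have h1 : CosetsIn.rep (QuotientGroup.mk 1 : CosetsIn (⊤ : Subgroup G) U) ∈ U :=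
      (Inj_rep_mem_iff U _).2 rfl
    rw [Inj_mulm_apply_coe, Inj_ind_apply_coe, if_pos (U.inv_mem h1), one_smul, hm _ h1]
  · intro q _ hq
    have h1 : (CosetsIn.rep q)⁻¹ ∉ U := by
      intro h
      exact hq ((Inj_rep_mem_iff U q).1 (by simpa using U.inv_mem h))
    rw [Inj_mulm_apply_coe, Inj_ind_apply_coe, if_neg h1, zero_smul, map_zero]
  · intro h
    exact absurd (Finset.mem_univ _) h

end Field

end Fermat.Agent.PT
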