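/-
S55 (Poitou-Tate), F1(j), step (b2) of the abstract duality theorem: the module
`coind L V2 triv` for `V2 ◁ V1` of index `p`.
-/
import Fermat.Agent.PT.Duality.Inj

set_option autoImplicit false
set_option maxHeartbeats 400000

namespace Fermat.Agent.PT

variable {k : Type*} [CommRing k] {G : Type*} [Group G]
variable {A : Type*} [AddCommGroup A] [Module k A]

/-- The inclusion `coind L V1 ρ → coind L V2 ρ` for `V2 ≤ V1`. -/
def coindIncl (L : LevelSystem G) (ρ : Representation k G A) {V1 V2 : Subgroup G} (h : V2 ≤ V1) :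
    EHomOn ⊤ (coind L V1 ρ) (coind L V2 ρ) :=
  ⟨{ toFun := fun F => ⟨F.1, fun v hv => F.2.1 v (h hv), F.2.2⟩
     map_add' := fun _ _ => rfl
     map_smul' := fun _ _ => rfl }, fun _ _ _ => rfl⟩

@[simp] lemma coindIncl_apply_coe (L : LevelSystem G) (ρ : Representation k G A)
    {V1 V2 : Subgroup G} (h : V2 ≤ V1) (F : X0 L V1 ρ) :
    (((coindIncl L ρ h).1 F : X0 L V2 ρ) : G → A) = F := rfl

lemma coindIncl_injective (L : LevelSystem G) (ρ : Representation k G A)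
    {V1 V2 : Subgroup G} (h : V2 ≤ V1) : Function.Injective (coindIncl L ρ h).1 :=
  fun _ _ hFF => Subtype.ext (congrArg (fun F : X0 L V2 ρ => (F : G → A)) hFF)

/-- Shapiro's isomorphism transports `coindIncl` to the restriction. -/
theorem shapiro_coindIncl_H3 (L : LevelSystem G) (ρ : Representation k G A)
    {V1 V2 : Subgroup G} (h : V2 ≤ V1) (x : H3 L ⊤ (coind L V1 ρ)) :
    (shapiroC L V2 ρ).H3 (mapH3 L ⊤ _ _ (coindIncl L ρ h) x) =
      (resC L ρ h).H3 ((shapiroC L V1 ρ).H3 x) := by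
  obtain ⟨z, rfl⟩ := H3.mk_surjective _ _ _ x
  rfl

theorem Cyclic_existsUnique {G : Type*} [Group G] {p : ℕ} [Fact p.Prime] {V1 V2 : Subgroup G}
    (hn : (V2.subgroupOf V1).Normal) (hidx : V2.relIndex V1 = p) {σ : G} (hσ1 : σ ∈ V1)
    (hσ2 : σ ∉ V2) {y : G} (hy : y ∈ V1) : ∃! i, i < p ∧ σ ^ i * y ∈ V2 := by
  have hcard : Nat.card (↥V1 ⧸ V2.subgroupOf V1) = p := hidx
  set s : ↥V1 ⧸ V2.subgroupOf V1 := ((⟨σ, hσ1⟩ : ↥V1) : ↥V1 ⧸ V2.subgroupOf V1) with hs
  set yb : ↥V1 ⧸ V2.subgroupOf V1 := ((⟨y, hy⟩ : ↥V1) : ↥V1 ⧸ V2.subgroupOf V1) with hyb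
  have hs1 : s ≠ 1 := by
    rw [hs, Ne, QuotientGroup.eq_one_iff, Subgroup.mem_subgroupOf]
    exact hσ2
  have hord : orderOf s = p := orderOf_eq_prime (by rw [← hcard]; exact pow_card_eq_one') hs1
  have hiff : ∀ i : ℕ, σ ^ i * y ∈ V2 ↔ s ^ i = yb⁻¹ := by
    intro i
    rw [eq_inv_iff_mul_eq_one, hs, hyb, ← QuotientGroup.mk_pow, ← QuotientGroup.mk_mul,
      QuotientGroup.eq_one_iff, Subgroup.mem_subgroupOf]
    rfl
  obtain ⟨n, hn'⟩ := (Submonoid.mem_powers_iff _ _).1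
    (mem_powers_of_prime_card hcard hs1 (g' := yb⁻¹))
  refine ⟨n % p, ⟨Nat.mod_lt _ (Fact.out : p.Prime).pos, ?_⟩, ?_⟩
  · rw [hiff, ← hord, pow_mod_orderOf, hn']
  · rintro j ⟨hj, hj2⟩
    rw [hiff] at hj2
    apply pow_injOn_Iio_orderOf (x := s)
    · rw [hord]; exact hj
    · rw [hord]; exact Nat.mod_lt _ (Fact.out : p.Prime).pos
    · show s ^ j = s ^ (n % p)
      rw [hj2, ← hord, pow_mod_orderOf, hn']

theorem Cyclic_pow_mem {G : Type*} [Group G] {p : ℕ} [Fact p.Prime] {V1 V2 : Subgroup G}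
    (hn : (V2.subgroupOf V1).Normal) (hidx : V2.relIndex V1 = p) {σ : G} (hσ1 : σ ∈ V1) :
    σ ^ p ∈ V2 := by
  have hcard : Nat.card (↥V1 ⧸ V2.subgroupOf V1) = p := hidx
  have h1 : ((⟨σ, hσ1⟩ : ↥V1) : ↥V1 ⧸ V2.subgroupOf V1) ^ p = 1 := by
    rw [← hcard]; exact pow_card_eq_one'
  rw [← QuotientGroup.mk_pow, QuotientGroup.eq_one_iff, Subgroup.mem_subgroupOf] at h1
  exact h1

open Polynomial in
theorem Cyclic_poly1 (p : ℕ) [Fact p.Prime] : ((X : (ZMod p)[X]) - 1) ^ p = X ^ p - 1 := by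
  rw [sub_pow_char, one_pow]

open Polynomial in
theorem Cyclic_poly2 (p : ℕ) [Fact p.Prime] :
    ((X : (ZMod p)[X]) - 1) ^ (p - 1) = ∑ i ∈ Finset.range p, X ^ i := by
  have hp : p - 1 + 1 = p := Nat.sub_add_cancel (Fact.out : p.Prime).one_le
  have h1 : ((X : (ZMod p)[X]) - 1) ≠ 0 := by
    have := X_sub_C_ne_zero (1 : ZMod p)
    rwa [C_1] at this
  apply mul_right_cancel₀ h1
  rw [← pow_succ, hp, Cyclic_poly1, geom_sum_mul]

lemma Cyclic_inv {L : LevelSystem G} {V : Subgroup G} (F : X0 L V (trivK k G)) {v : G}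
    (hv : v ∈ V) (x : G) : (F : G → k) (v * x) = (F : G → k) x := F.2.1 v hv x

/-- left translation by an element normalising `V`. -/
def Cyclic_ltr (L : LevelSystem G) (V : Subgroup G) (g : G) (hg : ∀ v ∈ V, g * v * g⁻¹ ∈ V) :
    X0 L V (trivK k G) →ₗ[k] X0 L V (trivK k G) where
  toFun F := ⟨fun x => (F : G → k) (g * x), fun v hv x => by
      have h1 := Cyclic_inv F (hg v hv) (g * x)
      have h2 : g * v * g⁻¹ * (g * x) = g * (v * x) := by group
      rw [h2] at h1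
      exact h1, by
      obtain ⟨U, hU, hs⟩ := F.2.2
      exact ⟨U, hU, fun x u hu => by
        show (F : G → k) (g * (x * u)) = (F : G → k) (g * x)
        rw [← mul_assoc]; exact hs (g * x) u hu⟩⟩
  map_add' _ _ := rfl
  map_smul' _ _ := rfl

@[simp] lemma Cyclic_ltr_apply_coe (L : LevelSystem G) (V : Subgroup G) (g : G)
    (hg : ∀ v ∈ V, g * v * g⁻¹ ∈ V) (F : X0 L V (trivK k G)) (x : G) :
    (Cyclic_ltr L V g hg F : G → k) x = (F : G → k) (g * x) := rfl

lemma Cyclic_ltr_pow_apply (L : LevelSystem G) (V : Subgroup G) (g : G)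
    (hg : ∀ v ∈ V, g * v * g⁻¹ ∈ V) (j : ℕ) (F : X0 L V (trivK k G)) (x : G) :
    (((Cyclic_ltr (k := k) L V g hg) ^ j) F : G → k) x = (F : G → k) (g ^ j * x) := by
  induction j generalizing F with
  | zero => simp
  | succ j ih =>
    rw [pow_succ, Module.End.mul_apply, ih, Cyclic_ltr_apply_coe, ← mul_assoc, ← pow_succ']

lemma Cyclic_pow_mem_EHomOn {B : Type*} [AddCommGroup B] [Module k B] (ρ : Representation k G B)
    {t : B →ₗ[k] B} (ht : t ∈ EHomOn ⊤ ρ ρ) (j : ℕ) : t ^ j ∈ EHomOn ⊤ ρ ρ := by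
  induction j with
  | zero => intro v _ a; simp
  | succ j ih =>
    intro v hv a
    rw [pow_succ, Module.End.mul_apply, Module.End.mul_apply, ht v hv, ih v hv]

/-- a smooth left `V2`-invariant function `c` with `∑_{i<p} c (σ^i x) = 1`. -/
theorem Cyclic_exists_partition {p : ℕ} [Fact p.Prime] {V1 V2 : Subgroup G} (h : V2 ≤ V1)
    (hn : (V2.subgroupOf V1).Normal) (hidx : V2.relIndex V1 = p) {σ : G} (hσ1 : σ ∈ V1)
    (hσ2 : σ ∉ V2) :
    ∃ c : G → ZMod p, (∀ v ∈ V2, ∀ x, c (v * x) = c x) ∧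
      ∀ x, ∑ i ∈ Finset.range p, c (σ ^ i * x) = 1 := by
  classical
  let r : G → G := fun x => Quotient.out (Quotient.mk (QuotientGroup.rightRel V1) x)
  have hr1 : ∀ x, x * (r x)⁻¹ ∈ V1 := by
    intro x
    have := Quotient.mk_out (s := QuotientGroup.rightRel V1) x
    exact QuotientGroup.rightRel_apply.1 this
  have hr2 : ∀ v ∈ V1, ∀ x, r (v * x) = r x := by
    intro v hv x
    have : Quotient.mk (QuotientGroup.rightRel V1) (v * x)
        = Quotient.mk (QuotientGroup.rightRel V1) x := by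
      apply Quotient.sound
      apply QuotientGroup.rightRel_apply.2
      have : x * (v * x)⁻¹ = v⁻¹ := by group
      rw [this]
      exact V1.inv_mem hv
    show Quotient.out _ = Quotient.out _
    rw [this]
  refine ⟨fun x => if x * (r x)⁻¹ ∈ V2 then 1 else 0, fun v hv x => ?_, fun x => ?_⟩
  · have h1 : v * x * (r (v * x))⁻¹ ∈ V2 ↔ x * (r x)⁻¹ ∈ V2 := by
      rw [hr2 v (h hv), mul_assoc]
      exact V2.mul_mem_cancel_left hv
    simp only [h1]
  · have h1 : ∀ i : ℕ, (σ ^ i * x * (r (σ ^ i * x))⁻¹ ∈ V2) ↔ σ ^ i * (x * (r x)⁻¹) ∈ V2 := by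
      intro i
      rw [hr2 _ (V1.pow_mem hσ1 i), mul_assoc]
    simp only [h1]
    rw [Finset.sum_boole]
    obtain ⟨i₀, ⟨hi₀, hi₀'⟩, huniq⟩ := Cyclic_existsUnique hn hidx hσ1 hσ2 (hr1 x)
    have : (Finset.range p).filter (fun i => σ ^ i * (x * (r x)⁻¹) ∈ V2) = {i₀} := by
      ext i
      simp only [Finset.mem_filter, Finset.mem_range, Finset.mem_singleton]
      exact ⟨fun hi => huniq i hi, fun hi => hi ▸ ⟨hi₀, hi₀'⟩⟩
    rw [this]
    simp

/-- `V2 ◁ V1` of index `p`, `V2` open, `σ ∈ V1 \ V2`.  On `X = coind L V2 triv` (functions on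
`V2 \ G`) let `(lam F)(x) = F (σ x)`, `t = lam - 1`.  Then `t` is equivariant, `t^p = lam^p - 1 = 0`,
`ker t` = the `V1`-invariant functions = image of `coindIncl`, `t^(p-1) = ∑_{i<p} lam^i`
(`(X-1)^(p-1) = ∑ X^i` in characteristic `p`: `Polynomial.cyclotomic_prime`,
`Polynomial.cyclotomic_mul_prime_pow_eq`), which factors as `coindIncl ∘ N`, and `N` is surjective:
for `F` `V1`-invariant take `F' = F` on `V2 · R`, `0` elsewhere, `R` a set of representatives of
`V1 \ G`. -/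
theorem exists_cyclic_data {p : ℕ} [Fact p.Prime] (L : LevelSystem G) {V1 V2 : Subgroup G}
    (h : V2 ≤ V1) (hopen : L.IsOpen V2) (hn : (V2.subgroupOf V1).Normal)
    (hidx : V2.relIndex V1 = p) :
    ∃ (t : EHomOn ⊤ (coind L V2 (trivK (ZMod p) G)) (coind L V2 (trivK (ZMod p) G)))
      (N : EHomOn ⊤ (coind L V2 (trivK (ZMod p) G)) (coind L V1 (trivK (ZMod p) G))),
      t.1 ^ (p - 1 + 1) = 0 ∧
      LinearMap.range (coindIncl L (trivK (ZMod p) G) h).1 = LinearMap.ker t.1 ∧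
      Function.Surjective N.1 ∧
      (coindIncl L (trivK (ZMod p) G) h).1 ∘ₗ N.1 = t.1 ^ (p - 1) := by
  classical
  have hp : p - 1 + 1 = p := Nat.sub_add_cancel (Fact.out : p.Prime).one_le
  obtain ⟨σ, hσ1, hσ2⟩ : ∃ σ ∈ V1, σ ∉ V2 := by
    by_contra hcon
    push Not at hcon
    have h1 : V2.relIndex V1 = 1 := Subgroup.relIndex_eq_one.2 hcon
    rw [hidx] at h1
    exact (Fact.out : p.Prime).one_lt.ne' h1
  have hnorm : ∀ g ∈ V1, ∀ v ∈ V2, g * v * g⁻¹ ∈ V2 := by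
    intro g hg v hv
    have := hn.conj_mem ⟨v, h hv⟩ (by rw [Subgroup.mem_subgroupOf]; exact hv) ⟨g, hg⟩
    rw [Subgroup.mem_subgroupOf] at this
    exact this
  set lam : Module.End (ZMod p) (X0 L V2 (trivK (ZMod p) G)) :=
    Cyclic_ltr (k := ZMod p) L V2 σ (hnorm σ hσ1) with hlam
  have hlam_pow : ∀ (j : ℕ) (F : X0 L V2 (trivK (ZMod p) G)) (x : G),
      ((lam ^ j) F : G → ZMod p) x = (F : G → ZMod p) (σ ^ j * x) := fun j F x =>
    Cyclic_ltr_pow_apply L V2 σ (hnorm σ hσ1) j F x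
  have hlam_p : lam ^ p = 1 := by
    ext F x
    rw [hlam_pow, Cyclic_inv F (Cyclic_pow_mem hn hidx hσ1)]
    rfl
  set t : Module.End (ZMod p) (X0 L V2 (trivK (ZMod p) G)) := lam - 1 with ht
  have ht_p : t ^ p = 0 := by
    have := congrArg (Polynomial.aeval lam) (Cyclic_poly1 p)
    simpa [hlam_p] using this
  have ht_p1 : t ^ (p - 1) = ∑ i ∈ Finset.range p, lam ^ i := by
    have := congrArg (Polynomial.aeval lam) (Cyclic_poly2 p)
    simpa using this
  have ht_apply : ∀ (F : X0 L V2 (trivK (ZMod p) G)) (x : G),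
      (t F : G → ZMod p) x = (F : G → ZMod p) (σ * x) - (F : G → ZMod p) x := fun F x => rfl
  have hker : ∀ F : X0 L V2 (trivK (ZMod p) G), t F = 0 ↔
      ∀ v ∈ V1, ∀ x, (F : G → ZMod p) (v * x) = (F : G → ZMod p) x := by
    intro F
    constructor
    · intro h0 v hv x
      have hσ : ∀ y, (F : G → ZMod p) (σ * y) = (F : G → ZMod p) y := by
        intro y
        have := congrArg (fun F' : X0 L V2 (trivK (ZMod p) G) => (F' : G → ZMod p) y) h0
        simp only [ht_apply] at this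
        exact sub_eq_zero.1 this
      have hσj : ∀ (j : ℕ) y, (F : G → ZMod p) (σ ^ j * y) = (F : G → ZMod p) y := by
        intro j
        induction j with
        | zero => intro y; simp
        | succ j ih => intro y; rw [pow_succ', mul_assoc, hσ, ih]
      obtain ⟨j, ⟨-, hj⟩, -⟩ := Cyclic_existsUnique hn hidx hσ1 hσ2 hv
      rw [← hσj j (v * x), ← mul_assoc, Cyclic_inv F hj]
    · intro h0
      ext x
      rw [ht_apply, h0 σ hσ1, sub_self]
      rfl
  have ht_eq : t ∈ EHomOn ⊤ (coind L V2 (trivK (ZMod p) G)) (coind L V2 (trivK (ZMod p) G)) := by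
    intro g _ F
    ext x
    rw [ht_apply, coind_apply_coe, coind_apply_coe, coind_apply_coe, ht_apply, mul_assoc]
  have ht_pow_eq := Cyclic_pow_mem_EHomOn (coind L V2 (trivK (ZMod p) G)) ht_eq (p - 1)
  have hkerN : ∀ F, t ((t ^ (p - 1)) F) = 0 := by
    intro F
    rw [← Module.End.mul_apply, ← pow_succ', hp, ht_p]
    rfl
  let N : X0 L V2 (trivK (ZMod p) G) →ₗ[ZMod p] X0 L V1 (trivK (ZMod p) G) :=
    { toFun := fun F => ⟨((t ^ (p - 1)) F : G → ZMod p),
        fun v hv x => (hker _).1 (hkerN F) v hv x, ((t ^ (p - 1)) F).2.2⟩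
      map_add' := fun F F' => Subtype.ext (by simp only [map_add]; rfl)
      map_smul' := fun c F => Subtype.ext (by simp only [map_smul]; rfl) }
  have hN_coe : ∀ F x, (N F : G → ZMod p) x = ((t ^ (p - 1)) F : G → ZMod p) x := fun _ _ => rfl
  refine ⟨⟨t, ht_eq⟩, ⟨N, ?_⟩, by rw [hp]; exact ht_p, ?_, ?_, ?_⟩
  · intro g hg F
    ext x
    rw [hN_coe, ht_pow_eq g hg F]
    rfl
  · ext F
    rw [LinearMap.mem_range, LinearMap.mem_ker]
    show _ ↔ t F = 0
    rw [hker]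
    constructor
    · rintro ⟨F', rfl⟩ v hv x
      exact Cyclic_inv F' hv x
    · intro h0
      exact ⟨⟨F.1, fun v hv x => h0 v hv x, F.2.2⟩, rfl⟩
  · intro F
    obtain ⟨c, hc1, hc2⟩ := Cyclic_exists_partition h hn hidx hσ1 hσ2
    obtain ⟨U₀, hU₀, hU₀V⟩ := hopen
    obtain ⟨U₁, hU₁, hs⟩ := F.2.2
    obtain ⟨U, hU, hUU₀, hUU₁⟩ := L.directed' U₀ hU₀ U₁ hU₁
    have hUn := L.normal' U hU
    have hcs : ∀ x, ∀ u ∈ U, c (x * u) = c x := by
      intro x u hu
      have h1 : x * u = (x * u * x⁻¹) * x := by group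
      rw [h1]
      exact hc1 _ (hU₀V (hUU₀ (hUn.conj_mem u hu x))) x
    let F' : X0 L V2 (trivK (ZMod p) G) :=
      ⟨fun x => c x * (F : G → ZMod p) x, fun v hv x => by
          show c (v * x) * (F : G → ZMod p) (v * x) = c x * (F : G → ZMod p) x
          rw [hc1 v hv, Cyclic_inv F (h hv)],
        U, hU, fun x u hu => by
          show c (x * u) * (F : G → ZMod p) (x * u) = c x * (F : G → ZMod p) x
          rw [hcs x u hu, hs x u (hUU₁ hu)]⟩
    refine ⟨F', ?_⟩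
    ext x
    show (N F' : G → ZMod p) x = _
    rw [hN_coe, ht_p1]
    have h2 : ((∑ i ∈ Finset.range p, lam ^ i) F' : G → ZMod p) x
        = ∑ i ∈ Finset.range p, ((lam ^ i) F' : G → ZMod p) x := by
      rw [LinearMap.sum_apply]
      simp only [Submodule.coe_sum, Finset.sum_apply]
    rw [h2]
    have h3 : ∀ i ∈ Finset.range p, ((lam ^ i) F' : G → ZMod p) x
        = c (σ ^ i * x) * (F : G → ZMod p) x := by
      intro i _
      rw [hlam_pow]
      show c (σ ^ i * x) * (F : G → ZMod p) (σ ^ i * x) = _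
      rw [Cyclic_inv F (V1.pow_mem hσ1 i)]
    rw [Finset.sum_congr rfl h3, ← Finset.sum_mul, hc2, one_mul]
  · rfl

end Fermat.Agent.PT
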