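/-
S55 (Poitou-Tate), F1(j): the fragments of the long exact sequence used by the abstract duality
theorem, in terms of `mapH2`, `mapH3`.
-/
import Fermat.Agent.PT.Duality.Defs
import Fermat.Agent.PT.Coh.LES

set_option autoImplicit false
set_option maxHeartbeats 400000

namespace Fermat.Agent.PT

variable {k : Type*} [CommRing k] {G : Type*} [Group G]
variable {A B C : Type*} [AddCommGroup A] [Module k A] [AddCommGroup B] [Module k B]
  [AddCommGroup C] [Module k C]

namespace SES

variable {L : LevelSystem G} {ρA : Representation k G A} {ρB : Representation k G B}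
  {ρC : Representation k G C} {i : A →ₗ[k] B} {p : B →ₗ[k] C} (S : SES L ρA ρB ρC i p)

/-- `i` as an element of `EHomOn V`. -/
def iHom (_S : SES L ρA ρB ρC i p) (V : Subgroup G) : EHomOn V ρA ρB :=
  ⟨i, fun v _ a => _S.i_equiv v a⟩

/-- `p` as an element of `EHomOn V`. -/
def pHom (_S : SES L ρA ρB ρC i p) (V : Subgroup G) : EHomOn V ρB ρC :=
  ⟨p, fun v _ a => _S.p_equiv v a⟩

include S

/-- (U0) exactness at `H²(B)`. -/
theorem mapH2_exact (V : Subgroup G) :
    Function.Exact (mapH2 L V ρA ρB (S.iHom V)) (mapH2 L V ρB ρC (S.pHom V)) :=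
  S.exact_iH2_pH2 V

/-- (U1) `H²(p)` onto implies `H³(i)` injective. -/
theorem mapH3_injective_of_mapH2_surjective (V : Subgroup G)
    (h : Function.Surjective (mapH2 L V ρB ρC (S.pHom V))) :
    Function.Injective (mapH3 L V ρA ρB (S.iHom V)) := by
  rw [injective_iff_map_eq_zero]
  intro a ha
  obtain ⟨c, rfl⟩ := (S.exact_δ2_iH3 V a).mp ha
  obtain ⟨b, rfl⟩ := h c
  exact (S.exact_pH2_δ2 V _).mpr ⟨b, rfl⟩

/-- (U2) `H³(A) = 0` implies `H²(p)` onto. -/
theorem mapH2_surjective_of_subsingleton (V : Subgroup G) (h : Subsingleton (H3 L V ρA)) :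
    Function.Surjective (mapH2 L V ρB ρC (S.pHom V)) := by
  intro c
  exact (S.exact_pH2_δ2 V c).mp (Subsingleton.elim _ _)

/-- (U3) `H³(A) = H³(C) = 0` implies `H³(B) = 0`. -/
theorem subsingleton_H3 (V : Subgroup G) (hA : Subsingleton (H3 L V ρA))
    (hC : Subsingleton (H3 L V ρC)) : Subsingleton (H3 L V ρB) := by
  refine ⟨fun x y => ?_⟩
  have key : ∀ z : H3 L V ρB, z = 0 := by
    intro z
    obtain ⟨a, rfl⟩ := (S.exact_iH3_pH3 V z).mp (Subsingleton.elim _ _)
    rw [Subsingleton.elim a 0, map_zero]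
  rw [key x, key y]

end SES

/-- `H³ = 0` in terms of cocycles and coboundaries. -/
theorem subsingleton_H3_iff {L : LevelSystem G} {V : Subgroup G} {ρ : Representation k G A} :
    Subsingleton (H3 L V ρ) ↔ Z3 L V ρ ≤ B3 L V ρ := by
  constructor
  · intro h z hz
    exact (H3.mk_eq_zero_iff L V ρ ⟨z, hz⟩).mp (Subsingleton.elim _ _)
  · intro h
    refine ⟨fun x y => ?_⟩
    obtain ⟨z, rfl⟩ := H3.mk_surjective L V ρ x
    obtain ⟨w, rfl⟩ := H3.mk_surjective L V ρ y
    rw [(H3.mk_eq_zero_iff L V ρ z).mpr (h z.2), (H3.mk_eq_zero_iff L V ρ w).mpr (h w.2)]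

end Fermat.Agent.PT
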