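/-
S55 (Poitou-Tate), F1(j), step (b1) of the abstract duality theorem: the nilpotent filtration lemma.
-/
import Fermat.Agent.PT.Duality.LES

set_option autoImplicit false
set_option maxHeartbeats 400000

namespace Fermat.Agent.PT

variable {k : Type*} [CommRing k] {G : Type*} [Group G]
variable {A C : Type*} [AddCommGroup A] [Module k A] [AddCommGroup C] [Module k C]

/-- A `2`-cochain with values in the range of an injective equivariant map comes from a
`2`-cochain of the source. -/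
theorem Nilp_pre2 {L : LevelSystem G} {ρA : Representation k G A} {ρC : Representation k G C}
    (inc : EHomOn ⊤ ρC ρA) (hinc : Function.Injective inc.1) {y : G → G → G → A}
    (hy : y ∈ X2 L ⊤ ρA) (h0 : ∀ g₀ g₁ g₂, y g₀ g₁ g₂ ∈ LinearMap.range inc.1) :
    ∃ a ∈ X2 L ⊤ ρC, pp2 (MonoidHom.id G) inc.1 a = y := by
  obtain ⟨he, U, hU, hs⟩ := hy
  choose a ha using h0
  refine ⟨a, ⟨fun v hv g₀ g₁ g₂ => hinc ?_, U, hU,
    fun g₀ g₁ g₂ u₀ h₀ u₁ h₁ u₂ h₂ => hinc ?_⟩, ?_⟩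
  · rw [ha, he v hv, inc.2 v hv, ha]
  · rw [ha, ha, hs _ _ _ _ h₀ _ h₁ _ h₂]
  · funext g₀ g₁ g₂
    exact ha g₀ g₁ g₂

/-- Lifting `1`-cochains along a surjective equivariant map with smooth source. -/
theorem Nilp_lift1 {L : LevelSystem G} {ρA : Representation k G A} {ρC : Representation k G C}
    (hA : IsSmoothRep L ρA) (N : EHomOn ⊤ ρA ρC) (hN : Function.Surjective N.1)
    {c : G → G → C} (hc : c ∈ X1 L ⊤ ρC) :
    ∃ c' ∈ X1 L ⊤ ρA, pp1 (MonoidHom.id G) N.1 c' = c := by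
  have hle : ∀ g, LinearMap.ker N.1 ≤ (LinearMap.ker N.1).comap (ρA g) := by
    intro g a ha
    rw [Submodule.mem_comap, LinearMap.mem_ker, N.2 g trivial, LinearMap.mem_ker.1 ha, map_zero]
  have S : SES L (ρA.subrepresentation (LinearMap.ker N.1) hle) ρA ρC
      (LinearMap.ker N.1).subtype N.1 :=
    { i_equiv := fun g a => rfl
      p_equiv := fun g b => N.2 g trivial b
      inj := Subtype.val_injective
      surj := hN
      exact := by
        intro a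
        constructor
        · intro h
          exact ⟨⟨a, h⟩, rfl⟩
        · rintro ⟨b, rfl⟩
          exact b.2
      smooth := hA }
  exact S.exists_lift1 ⊤ hc

/-- Powers of an equivariant endomorphism are equivariant. -/
theorem Nilp_pow_mem {ρA : Representation k G A} (t : EHomOn ⊤ ρA ρA) (j : ℕ) :
    t.1 ^ j ∈ EHomOn ⊤ ρA ρA := by
  induction j with
  | zero => intro v _ a; simp
  | succ j ih =>
    intro v hv a
    rw [pow_succ, Module.End.mul_apply, Module.End.mul_apply, t.2 v hv, ih v hv]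

/-- The cochain level form of the surjectivity of `H²(N)`: every cocycle lifts to a cocycle. -/
theorem Nilp_lift_Z2 {L : LevelSystem G} {ρA : Representation k G A} {ρC : Representation k G C}
    (hA : IsSmoothRep L ρA) (N : EHomOn ⊤ ρA ρC) (hN : Function.Surjective N.1)
    (hH2 : Function.Surjective (mapH2 L ⊤ ρA ρC N)) {y : G → G → G → C} (hy : y ∈ Z2 L ⊤ ρC) :
    ∃ e ∈ Z2 L ⊤ ρA, pp2 (MonoidHom.id G) N.1 e = y := by
  obtain ⟨x, hx⟩ := hH2 (H2.mk L ⊤ ρC ⟨y, hy⟩)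
  obtain ⟨a, rfl⟩ := H2.mk_surjective L ⊤ ρA x
  have h1 : H2.mk L ⊤ ρC (⟨y, hy⟩ - (mapC L ⊤ N.2).Z2 a) = 0 := by
    rw [map_sub, sub_eq_zero]
    exact hx.symm
  rw [H2.mk_eq_zero_iff] at h1
  obtain ⟨c, hc, hdc⟩ := h1
  obtain ⟨c', hc', hcc'⟩ := Nilp_lift1 hA N hN hc
  refine ⟨(a : G → G → G → A) + d1 (k := k) c', add_mem a.2 (B2_le_Z2 ⟨c', hc', rfl⟩), ?_⟩
  rw [map_add, ← d1_pp1, hcc', hdc]
  show pp2 (MonoidHom.id G) N.1 (a : G → G → G → A) + (y - pp2 (MonoidHom.id G) N.1 a) = y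
  abel

/-- Let `t` be an equivariant endomorphism of the smooth representation `A` with `t^(n+1) = 0`,
`inc : C → A` injective equivariant with image `ker t`, `N : A → C` surjective equivariant with
`inc ∘ N = t^n`.  If `H²(N)` is surjective then `H³(inc)` is injective.

Proof (cochain level).  Let `z ∈ Z3(C)` with `inc ∘ z = d b`, `b ∈ X2(A)`.  Claim `P(j)`:
`∃ b ∈ X2(A), t^j ∘ b = 0 ∧ d b = inc ∘ z`.  `P(n+1)` holds.  `P(j+1) ⇒ P(j)` for `1 ≤ j ≤ n`:
`t^j ∘ b` has values in `ker t = range inc`, so `t^j ∘ b = inc ∘ y` with `y ∈ X2(C)`, and `d y = 0`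
because `inc (d y) = t^j (inc z) = 0`.  By hypothesis `y = N ∘ a + d c`, `a ∈ Z2(A)`, `c ∈ X1(C)`;
lift `c = N ∘ c'`, `c' ∈ X1(A)` (`SES.exists_lift1` for `0 → ker N → A → C → 0`).
Put `b' = b - t^(n-j) ∘ (a + d c')`; then `t^j b' = inc (y - N a - d c) = 0`, `d b' = d b`.
Finally `P(1)` gives `b = inc ∘ b₀`, `b₀ ∈ X2(C)`, `d b₀ = z`. -/
theorem mapH3_injective_of_nilpotent (L : LevelSystem G) {ρA : Representation k G A}
    {ρC : Representation k G C} (hA : IsSmoothRep L ρA)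
    (t : EHomOn ⊤ ρA ρA) (inc : EHomOn ⊤ ρC ρA) (N : EHomOn ⊤ ρA ρC) (n : ℕ)
    (ht : t.1 ^ (n + 1) = 0) (hinc : Function.Injective inc.1)
    (hker : LinearMap.range inc.1 = LinearMap.ker t.1) (hN : Function.Surjective N.1)
    (hNt : inc.1 ∘ₗ N.1 = t.1 ^ n)
    (hH2 : Function.Surjective (mapH2 L ⊤ ρA ρC N)) :
    Function.Injective (mapH3 L ⊤ ρC ρA inc) := by
  rw [injective_iff_map_eq_zero]
  intro x hx
  obtain ⟨z, rfl⟩ := H3.mk_surjective L ⊤ ρC x
  have hx' : H3.mk L ⊤ ρA ((mapC L ⊤ inc.2).Z3 z) = 0 := hx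
  rw [H3.mk_eq_zero_iff] at hx'
  obtain ⟨b, hb, hdb⟩ := hx'
  have hdb' : d2 (k := k) b = pp3 (MonoidHom.id G) inc.1 (z : G → G → G → G → C) := hdb
  -- `t ∘ inc = 0`
  have htinc : ∀ c, t.1 (inc.1 c) = 0 := by
    intro c
    have : inc.1 c ∈ LinearMap.ker t.1 := by rw [← hker]; exact ⟨c, rfl⟩
    exact this
  have htjinc : ∀ j, 1 ≤ j → ∀ c, (t.1 ^ j) (inc.1 c) = 0 := by
    intro j hj c
    obtain ⟨i, rfl⟩ : ∃ i, j = i + 1 := ⟨j - 1, by omega⟩
    rw [pow_succ, Module.End.mul_apply, htinc, map_zero]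
  -- the descending induction
  have key : ∀ i, i ≤ n → ∃ b ∈ X2 L ⊤ ρA, pp2 (MonoidHom.id G) (t.1 ^ (n + 1 - i)) b = 0 ∧
      d2 (k := k) b = pp3 (MonoidHom.id G) inc.1 (z : G → G → G → G → C) := by
    intro i
    induction i with
    | zero =>
      intro _
      refine ⟨b, hb, ?_, hdb'⟩
      funext g₀ g₁ g₂
      simp [ht]
    | succ i ih =>
      intro hi
      obtain ⟨b, hb, htb, hdb⟩ := ih (by omega)
      obtain ⟨j, hj1, hjn, hj, hj'⟩ : ∃ j, 1 ≤ j ∧ j ≤ n ∧ n + 1 - i = j + 1 ∧ n + 1 - (i + 1) = j :=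
        ⟨n - i, by omega, by omega, by omega, by omega⟩
      rw [hj] at htb
      rw [hj']
      -- `t^j ∘ b = inc ∘ y`
      have h1 : pp2 (MonoidHom.id G) (t.1 ^ j) b ∈ X2 L ⊤ ρA :=
        (mapC L ⊤ (Nilp_pow_mem t j)).mem2 b hb
      have h2 : ∀ g₀ g₁ g₂, pp2 (MonoidHom.id G) (t.1 ^ j) b g₀ g₁ g₂ ∈ LinearMap.range inc.1 := by
        intro g₀ g₁ g₂
        rw [hker, LinearMap.mem_ker]
        have := congrFun (congrFun (congrFun htb g₀) g₁) g₂
        rw [pp2_apply, pow_succ', Module.End.mul_apply] at this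
        exact this
      obtain ⟨y, hy, hyb⟩ := Nilp_pre2 inc hinc h1 h2
      have hyZ : y ∈ Z2 L ⊤ ρC := by
        refine ⟨hy, ?_⟩
        show d2 (k := k) y = 0
        have h3 : pp3 (MonoidHom.id G) inc.1 (d2 (k := k) y) = 0 := by
          rw [← d2_pp2, hyb, d2_pp2, hdb]
          funext g₀ g₁ g₂ g₃
          simp only [pp3_apply, Pi.zero_apply]
          exact htjinc j hj1 _
        funext g₀ g₁ g₂ g₃
        apply hinc
        have := congrFun (congrFun (congrFun (congrFun h3 g₀) g₁) g₂) g₃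
        rw [pp3_apply] at this
        simpa using this
      obtain ⟨e, he, hey⟩ := Nilp_lift_Z2 hA N hN hH2 hyZ
      refine ⟨b - pp2 (MonoidHom.id G) (t.1 ^ (n - j)) e,
        sub_mem hb ((mapC L ⊤ (Nilp_pow_mem t (n - j))).mem2 e he.1), ?_, ?_⟩
      · rw [map_sub, ← hyb, ← hey]
        funext g₀ g₁ g₂
        simp only [Pi.sub_apply, pp2_apply, Pi.zero_apply, MonoidHom.id_apply]
        rw [← Module.End.mul_apply, ← pow_add, Nat.add_sub_cancel' hjn, ← hNt,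
          LinearMap.comp_apply, sub_self]
      · rw [map_sub, d2_pp2, (mem_Z2.1 he).2, map_zero, sub_zero, hdb]
  obtain ⟨b₁, hb₁, htb₁, hdb₁⟩ := key n le_rfl
  have h2 : ∀ g₀ g₁ g₂, b₁ g₀ g₁ g₂ ∈ LinearMap.range inc.1 := by
    intro g₀ g₁ g₂
    rw [hker, LinearMap.mem_ker]
    have := congrFun (congrFun (congrFun htb₁ g₀) g₁) g₂
    rw [pp2_apply, Nat.add_sub_cancel_left, pow_one] at this
    exact this
  obtain ⟨b₀, hb₀, hbb⟩ := Nilp_pre2 inc hinc hb₁ h2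
  rw [H3.mk_eq_zero_iff]
  refine ⟨b₀, hb₀, ?_⟩
  have h3 : pp3 (MonoidHom.id G) inc.1 (d2 (k := k) b₀)
      = pp3 (MonoidHom.id G) inc.1 (z : G → G → G → G → C) := by
    rw [← d2_pp2, hbb, hdb₁]
  funext g₀ g₁ g₂ g₃
  apply hinc
  exact congrFun (congrFun (congrFun (congrFun h3 g₀) g₁) g₂) g₃

end Fermat.Agent.PT
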