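/-
S55 (Poitou-Tate), F1(j), step (c) of the abstract duality theorem: `H³(V, F_p) = 0` for all open `V`.
-/
import Fermat.Agent.PT.Duality.Nilp
import Fermat.Agent.PT.Duality.Cyclic
import Fermat.Agent.PT.Coh.Tower

set_option autoImplicit false
set_option maxHeartbeats 400000

namespace Fermat.Agent.PT

section Field

variable {k : Type*} [Field k] {G : Type*} [Group G]
variable {A A' W : Type*} [AddCommGroup A] [Module k A] [AddCommGroup A'] [Module k A']
  [AddCommGroup W] [Module k W]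

/-- Surjectivity of `H²(N)` by duality: `N : ρ → ρ'` surjective, `alpha` injective on `ρ` and
surjective on `ρ'`.
(`LinearMap.dualMap_injective_iff`: it suffices that `τ ∘ H²(N) = 0 ⇒ τ = 0`; write `τ = alpha φ`;
`alpha (φ ∘ N) = alpha φ ∘ H²(N) = 0` (`alpha_precomp`), so `φ ∘ N = 0`, `φ = 0`.) -/
theorem mapH2_surjective_of_alpha (L : LevelSystem G) (V : Subgroup G) (σ : Representation k G W)
    (tr : H2 L V σ →ₗ[k] k) {ρ : Representation k G A} {ρ' : Representation k G A'}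
    (N : EHomOn V ρ ρ') (hN : Function.Surjective N.1)
    (h1 : Function.Injective (alpha L V σ tr ρ)) (h2 : Function.Surjective (alpha L V σ tr ρ')) :
    Function.Surjective (mapH2 L V ρ ρ' N) := by
  rw [← LinearMap.dualMap_injective_iff, injective_iff_map_eq_zero]
  intro τ hτ
  obtain ⟨φ, rfl⟩ := h2 τ
  have h0 : EHomOn.precomp σ N.2 φ = 0 := by
    apply h1
    rw [map_zero]
    apply LinearMap.ext
    intro x
    rw [alpha_precomp]
    exact congrArg (fun f : Module.Dual k (H2 L V ρ) => f x) hτ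
  have hφ : φ = 0 := by
    apply Subtype.ext
    apply LinearMap.ext
    intro a'
    obtain ⟨a, rfl⟩ := hN a'
    exact congrArg (fun f : EHomOn V ρ σ => f.1 a) h0
  rw [hφ, map_zero]

end Field

variable {p : ℕ} [Fact p.Prime] {G : Type*} [Group G]
variable {W : Type*} [AddCommGroup W] [Module (ZMod p) W]

/-- The index-`p` step: `res : H³(V1, F_p) → H³(V2, F_p)` is injective.
(`exists_cyclic_data`, `mapH2_surjective_of_alpha`, `mapH3_injective_of_nilpotent` give the
injectivity of `mapH3 (coindIncl ..)`; transport by Shapiro: `shapiro_coindIncl_H3`,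
`shapiro_bijective_H3`.) -/
theorem mem_B3_triv_step (L : LevelSystem G) (σ : Representation (ZMod p) G W)
    (tr : H2 L ⊤ σ →ₗ[ZMod p] ZMod p) {V1 V2 : Subgroup G} (h : V2 ≤ V1) (hopen : L.IsOpen V2)
    (hn : (V2.subgroupOf V1).Normal) (hidx : V2.relIndex V1 = p)
    (h1 : Function.Injective (alpha L ⊤ σ tr (coind L V2 (trivK (ZMod p) G))))
    (h2 : Function.Surjective (alpha L ⊤ σ tr (coind L V1 (trivK (ZMod p) G))))
    {z : G → G → G → G → ZMod p} (hz : z ∈ Z3 L V1 (trivK (ZMod p) G))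
    (hz' : z ∈ B3 L V2 (trivK (ZMod p) G)) : z ∈ B3 L V1 (trivK (ZMod p) G) := by
  obtain ⟨t, N, ht, hker, hN, hNt⟩ := exists_cyclic_data (p := p) L h hopen hn hidx
  have hH2 := mapH2_surjective_of_alpha L ⊤ σ tr N hN h1 h2
  have hinj := mapH3_injective_of_nilpotent L (isSmoothRep_coind L V2 _) t
    (coindIncl L _ h) N (p - 1) ht (coindIncl_injective L _ h) hker hN hNt hH2
  obtain ⟨y, hy⟩ := (shapiro_bijective_H3 L V1 (trivK (ZMod p) G)).2
    (H3.mk L V1 (trivK (ZMod p) G) ⟨z, hz⟩)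
  have hres : (resC L (trivK (ZMod p) G) h).H3 (H3.mk L V1 (trivK (ZMod p) G) ⟨z, hz⟩) = 0 := by
    rw [CMap.H3_mk, H3.mk_eq_zero_iff]
    exact hz'
  have h3 := shapiro_coindIncl_H3 L (trivK (ZMod p) G) h y
  rw [hy, hres] at h3
  have h4 : mapH3 L ⊤ _ _ (coindIncl L (trivK (ZMod p) G) h) y = 0 := by
    apply (shapiro_bijective_H3 L V2 (trivK (ZMod p) G)).1
    rw [h3, map_zero]
  have hy0 : y = 0 := by
    apply hinj
    rw [h4, map_zero]
  rw [hy0, map_zero] at hy
  exact (H3.mk_eq_zero_iff L V1 _ ⟨z, hz⟩).mp hy.symm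

/-- Step (c): `H³(V, F_p) = 0` for every open subgroup `V` (`tower_principle3`). -/
theorem Z3_le_B3_triv (L : LevelSystem G) (σ : Representation (ZMod p) G W)
    (tr : H2 L ⊤ σ →ₗ[ZMod p] ZMod p) (G1 : Subgroup G) [G1.Normal] (hG1 : L.IsOpen G1)
    (hidx : ¬ p ∣ G1.index)
    (hbase : ∀ V : Subgroup G, L.IsOpen V → V ≤ G1 →
      Function.Bijective (alpha L ⊤ σ tr (coind L V (trivK (ZMod p) G))))
    (V : Subgroup G) (hV : L.IsOpen V) :
    Z3 L V (trivK (ZMod p) G) ≤ B3 L V (trivK (ZMod p) G) := by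
  intro z hz
  refine tower_principle3 (p := p) (fun a => ?_) G1 hG1 hidx hz ?_
  · rw [← Nat.cast_smul_eq_nsmul (ZMod p), ZMod.natCast_self, zero_smul]
  · intro V1 V2 h21 h1 ⟨U, hU, hUV⟩ hn hi hz2
    have hopen2 : L.IsOpen V2 := by
      obtain ⟨U', hU', hle⟩ := hV
      obtain ⟨U'', hU'', h1', h2'⟩ := L.directed' U' hU' U hU
      exact ⟨U'', hU'', (le_inf (h1'.trans hle) h2').trans hUV⟩
    have hopen1 : L.IsOpen V1 := by
      obtain ⟨U', hU', hle⟩ := hopen2
      exact ⟨U', hU', hle.trans h21⟩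
    have hz1 : z ∈ Z3 L V1 (trivK (ZMod p) G) :=
      ⟨⟨fun v hv => hz.1.1 v (h1 hv).1, hz.1.2⟩, hz.2⟩
    exact mem_B3_triv_step L σ tr h21 hopen2 hn hi
      (hbase V2 hopen2 (h21.trans (h1.trans inf_le_right))).1
      (hbase V1 hopen1 (h1.trans inf_le_right)).2 hz1 hz2

end Fermat.Agent.PT
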