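/-
S55 (Poitou-Tate), F1(j), step (c'1) of the abstract duality theorem: unipotent dévissage.
-/
import Fermat.Agent.PT.Duality.LES
import Fermat.Agent.PT.Duality.Inj

set_option autoImplicit false
set_option maxHeartbeats 400000

namespace Fermat.Agent.PT

variable {p : ℕ} [Fact p.Prime] {H : Type*} [Group H]

/-- A group acting on a nonzero finite `F_p`-vector space through a finite `p`-group fixes a nonzero
vector. -/
theorem exists_fixed_vector {N : Type*} [AddCommGroup N] [Module (ZMod p) N]
    [Module.Finite (ZMod p) N] [Nontrivial N] (ρ : Representation (ZMod p) H N)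
    (U : Subgroup H) [U.Normal] (m : ℕ) (hidx : U.index = p ^ m) (hfix : ∀ u ∈ U, ρ u = 1) :
    ∃ v : N, v ≠ 0 ∧ ∀ h : H, ρ h v = v := by
  classical
  have hp : p.Prime := Fact.out
  -- the quotient group is a `p`-group
  have hQ : IsPGroup p (H ⧸ U) := IsPGroup.of_card (n := m) (by
    rw [← hidx]; rfl)
  -- the descended representation
  let ρQ : (H ⧸ U) →* Module.End (ZMod p) N := QuotientGroup.lift U ρ hfix
  letI act : MulAction (H ⧸ U) N :=
    { smul := fun q v => ρQ q v
      one_smul := fun v => by
        show ρQ 1 v = v
        rw [map_one]; rfl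
      mul_smul := fun a b v => by
        show ρQ (a * b) v = ρQ a (ρQ b v)
        rw [map_mul]; rfl }
  haveI : Finite N := Module.finite_of_finite (ZMod p)
  have hcard : p ∣ Nat.card N := by
    have h1 : Nat.card N = p ^ Module.finrank (ZMod p) N := by
      rw [Module.natCard_eq_pow_finrank (K := ZMod p) (V := N), Nat.card_zmod]
    rw [h1]
    have hpos : 0 < Module.finrank (ZMod p) N := Module.finrank_pos
    exact dvd_pow_self p hpos.ne'
  have h0 : (0 : N) ∈ MulAction.fixedPoints (H ⧸ U) N := by
    intro q
    show ρQ q 0 = 0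
    exact map_zero _
  obtain ⟨v, hv, hne⟩ := hQ.exists_fixed_point_of_prime_dvd_card_of_fixed_point N hcard h0
  refine ⟨v, fun h => hne h.symm, fun h => ?_⟩
  have := hv (h : H ⧸ U)
  exact this

/-- auxiliary form of `subsingleton_H3_of_pgroup`, by induction on the dimension. -/
theorem subsingleton_H3_of_pgroup_aux (L : LevelSystem H)
    (htriv : Subsingleton (H3 L ⊤ (trivK (ZMod p) H))) (U : Subgroup H) (hU : U ∈ L) (m : ℕ)
    (hidx : U.index = p ^ m) (n : ℕ) :
    ∀ {N : Type*} [AddCommGroup N] [Module (ZMod p) N] [Module.Finite (ZMod p) N]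
    (ρ : Representation (ZMod p) H N), (∀ u ∈ U, ρ u = 1) → Module.finrank (ZMod p) N = n →
      Subsingleton (H3 L ⊤ ρ) := by
  induction n with
  | zero =>
    intro N _ _ _ ρ _ hn
    haveI : Subsingleton N := Module.finrank_zero_iff.mp hn
    rw [subsingleton_H3_iff]
    intro z _
    have : z = 0 := by
      funext a b c d
      exact Subsingleton.elim _ _
    rw [this]
    exact Submodule.zero_mem _
  | succ n ih =>
    intro N _ _ _ ρ hfix hn
    haveI : U.Normal := L.normal' U hU
    haveI : Nontrivial N := Module.nontrivial_of_finrank_pos (R := ZMod p) (by omega)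
    obtain ⟨v, hv0, hv⟩ := exists_fixed_vector ρ U m hidx hfix
    let K : Submodule (ZMod p) N := Submodule.span (ZMod p) {v}
    have hK : ∀ g : H, K ≤ K.comap (ρ g) := by
      intro g x hx
      obtain ⟨c, rfl⟩ := Submodule.mem_span_singleton.mp hx
      show ρ g (c • v) ∈ K
      rw [map_smul, hv]
      exact Submodule.smul_mem _ _ (Submodule.mem_span_singleton_self v)
    let ρC : Representation (ZMod p) H (N ⧸ K) :=
      { toFun := fun g => K.mapQ K (ρ g) (hK g)
        map_one' := by
          ext x
          simp
        map_mul' := by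
          intro a b
          ext x
          simp }
    have S : SES L (trivK (ZMod p) H) ρ ρC (LinearMap.toSpanSingleton (ZMod p) N v) K.mkQ :=
      { i_equiv := by
          intro g a
          simp [LinearMap.toSpanSingleton_apply, hv]
        p_equiv := by
          intro g b
          rfl
        inj := by
          intro a b hab
          simp only [LinearMap.toSpanSingleton_apply] at hab
          exact smul_left_injective (ZMod p) hv0 hab
        surj := Submodule.mkQ_surjective K
        exact := by
          intro x
          rw [Submodule.mkQ_apply, Submodule.Quotient.mk_eq_zero]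
          constructor
          · intro hx
            obtain ⟨c, rfl⟩ := Submodule.mem_span_singleton.mp hx
            exact ⟨c, rfl⟩
          · rintro ⟨c, rfl⟩
            exact Submodule.smul_mem _ _ (Submodule.mem_span_singleton_self v)
        smooth := by
          intro a
          exact ⟨U, hU, fun u hu => by rw [hfix u hu]; rfl⟩ }
    have hfixC : ∀ u ∈ U, ρC u = 1 := by
      intro u hu
      ext x
      show K.mapQ K (ρ u) (hK u) (K.mkQ x) = _
      simp [hfix u hu]
    have hrank : Module.finrank (ZMod p) (N ⧸ K) = n := by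
      have h1 := Submodule.finrank_quotient_add_finrank K
      have h2 : Module.finrank (ZMod p) K = 1 := finrank_span_singleton hv0
      omega
    exact S.subsingleton_H3 ⊤ htriv (ih ρC hfixC hrank)

/-- If `H³(H, F_p) = 0` and `H` acts on the finite `F_p`-vector space `N` through a finite
`p`-group `H/U`, `U` a level, then `H³(H, N) = 0`.
(Induction on `finrank N`: a fixed vector `v ≠ 0` gives `0 → F_p → N → N/⟨v⟩ → 0`;
`SES.subsingleton_H3`.) -/
theorem subsingleton_H3_of_pgroup (L : LevelSystem H)
    (htriv : Subsingleton (H3 L ⊤ (trivK (ZMod p) H)))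
    {N : Type*} [AddCommGroup N] [Module (ZMod p) N] [Module.Finite (ZMod p) N]
    (ρ : Representation (ZMod p) H N) (U : Subgroup H) (hU : U ∈ L) (m : ℕ)
    (hidx : U.index = p ^ m) (hfix : ∀ u ∈ U, ρ u = 1) : Subsingleton (H3 L ⊤ ρ) :=
  subsingleton_H3_of_pgroup_aux L htriv U hU m hidx _ ρ hfix rfl

end Fermat.Agent.PT
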