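/-
S55 (Poitou-Tate), F1(j), step (c'2) of the abstract duality theorem: `H³(G, M) = 0` for all finite
smooth `M`.
-/
import Fermat.Agent.PT.Duality.Unip
import Fermat.Agent.PT.Coh.Tower
import Fermat.Agent.PT.Coh.Rel

set_option autoImplicit false
set_option maxHeartbeats 400000

namespace Fermat.Agent.PT

variable {G : Type*} [Group G]

/-- A smooth representation on a finitely generated module is trivial on some level. -/
theorem exists_level_trivial {k : Type*} [CommRing k] {A : Type*} [AddCommGroup A] [Module k A]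
    [Module.Finite k A] {L : LevelSystem G} {ρ : Representation k G A} (hρ : IsSmoothRep L ρ) :
    ∃ U ∈ L, ∀ u ∈ U, ρ u = 1 := by
  obtain ⟨s, hs⟩ := (Module.finite_def (R := k) (M := A)).mp inferInstance
  obtain ⟨U, hU, hfix⟩ := hρ.exists_level_fixing s.finite_toSet
  refine ⟨U, hU, fun u hu => ?_⟩
  apply LinearMap.ext_on hs
  intro a ha
  exact hfix u hu a ha

variable {p : ℕ} [Fact p.Prime]

/-- If `H³(V, F_p) = 0` for all open `V`, then `H³(G, M) = 0` for all finite smooth `M`.

Proof: let `U ∈ L` act trivially on `M` (`exists_level_trivial`), `P 0 = ⊤ ⊓ U ≤ .. ≤ P m =: P` the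
chain of `exists_sylow_chain p hU ⊤`: `(P 0).relIndex P = p ^ m`, `P.relIndex ⊤` prime to `p`.
For `z ∈ Z3 L ⊤ ρ` it suffices that `z ∈ B3 L P ρ` (`mem_B3_of_coprime`), i.e. that
`(relSubC L ρ P).H3 [z] = 0` (`relSub_bijective_H3`).  But `H3 (L.induced P) ⊤ (ρ.comp P.subtype)` is
trivial by `subsingleton_H3_of_pgroup` for the group `↥P`, the level `U.comap P.subtype` (index
`U.relIndex P = (P 0).relIndex P = p ^ m`); its hypothesis `htriv` follows from
`relSub_bijective_H3 L triv P` and `Z3 L P triv ≤ B3 L P triv`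
(`(trivK k G).comp P.subtype = trivK k ↥P` by `rfl`). -/
theorem subsingleton_H3_of_triv (L : LevelSystem G)
    (htriv : ∀ V : Subgroup G, L.IsOpen V →
      Z3 L V (trivK (ZMod p) G) ≤ B3 L V (trivK (ZMod p) G))
    {A : Type*} [AddCommGroup A] [Module (ZMod p) A] [Module.Finite (ZMod p) A]
    (ρ : Representation (ZMod p) G A) (hρ : IsSmoothRep L ρ) : Subsingleton (H3 L ⊤ ρ) := by
  obtain ⟨U, hU, hfix⟩ := exists_level_trivial hρ
  obtain ⟨m, P, h0, hmono, hleV, hst, hfin, hcop⟩ := exists_sylow_chain (L := L) p hU ⊤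
  have hmono' : Monotone P := monotone_nat_of_le_succ hmono
  have hP0 : P 0 = U := by rw [h0, top_inf_eq]
  have key : ∀ i, i ≤ m → (P 0).relIndex (P i) = p ^ i := by
    intro i
    induction i with
    | zero =>
      intro _
      rw [Subgroup.relIndex_self, pow_zero]
    | succ i ih =>
      intro hi
      have hr := ih (by omega)
      obtain ⟨hn, hp⟩ := hst i (by omega)
      rw [← Subgroup.relIndex_mul_relIndex _ _ _ (hmono' (Nat.zero_le i)) (hmono i), hr, hp,
        pow_succ]
  have hUP : U ≤ P m := by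
    rw [← hP0]
    exact hmono' (Nat.zero_le m)
  have hPopen : L.IsOpen (P m) := ⟨U, hU, hUP⟩
  -- the group `↥(P m)`
  have htrivP : Subsingleton (H3 (L.induced (P m)) ⊤ (trivK (ZMod p) ↥(P m))) := by
    have h1 : Subsingleton (H3 L (P m) (trivK (ZMod p) G)) :=
      subsingleton_H3_iff.mpr (htriv (P m) hPopen)
    exact (relSub_bijective_H3 L (trivK (ZMod p) G) (P m)).2.subsingleton
  have hsub : Subsingleton (H3 (L.induced (P m)) ⊤ (ρ.comp (P m).subtype)) := by
    refine subsingleton_H3_of_pgroup (L.induced (P m)) htrivP (ρ.comp (P m).subtype)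
      (U.comap (P m).subtype) ⟨U, hU, rfl⟩ m ?_ ?_
    · have h1 : (U.comap (P m).subtype).index = U.relIndex (P m) := rfl
      rw [h1, ← hP0, key m le_rfl]
    · intro u hu
      exact hfix _ hu
  have hsubP : Subsingleton (H3 L (P m) ρ) :=
    (relSub_bijective_H3 L ρ (P m)).1.subsingleton
  rw [subsingleton_H3_iff] at hsubP ⊢
  intro z hz
  refine mem_B3_of_coprime (p := p) (fun a => ?_) (hleV m) hfin hcop hz (hsubP ?_)
  · rw [← Nat.cast_smul_eq_nsmul (ZMod p), ZMod.natCast_self, zero_smul]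
  · exact ⟨⟨fun v _ => hz.1.1 v trivial, hz.1.2⟩, hz.2⟩

end Fermat.Agent.PT
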