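/-
S55 (Poitou-Tate), F1(j), step (d2) of the abstract duality theorem: surjectivity of `alpha` from a
resolution.
-/
import Fermat.Agent.PT.Duality.LES

set_option autoImplicit false
set_option maxHeartbeats 400000

namespace Fermat.Agent.PT

section Field

variable {k : Type*} [Field k] {G : Type*} [Group G]
variable {A W : Type*} [AddCommGroup A] [Module k A] [AddCommGroup W] [Module k W]

/-- Step (d): let `q : B → A` be a surjective equivariant map, `B` smooth, with `H³(ker q) = 0`,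
`alpha` injective on `ker q` and surjective on `B`.  Then `alpha` is surjective on `A`.

Proof: `H²(q)` is onto (`SES.mapH2_surjective_of_subsingleton` for `0 → ker q → B → A → 0`).  Given
`τ`, write `τ ∘ H²(q) = alpha φ₀`.  `alpha (φ₀ ∘ incl) = τ ∘ H²(q ∘ incl) = 0`, so `φ₀` kills `ker q`
and factors as `φ₀ = φ ∘ q` with `φ` equivariant; `alpha φ ∘ H²(q) = τ ∘ H²(q)`, so `alpha φ = τ`. -/
theorem alpha_surjective_of_resolution {B : Type*} [AddCommGroup B] [Module k B]
    (L : LevelSystem G) (σ : Representation k G W) (tr : H2 L ⊤ σ →ₗ[k] k)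
    (ρ : Representation k G A) (ρB : Representation k G B) (hB : IsSmoothRep L ρB)
    (q : EHomOn ⊤ ρB ρ) (hq : Function.Surjective q.1)
    (hle : ∀ g, LinearMap.ker q.1 ≤ (LinearMap.ker q.1).comap (ρB g))
    (hH3 : Subsingleton (H3 L ⊤ (ρB.subrepresentation (LinearMap.ker q.1) hle)))
    (hinj : Function.Injective (alpha L ⊤ σ tr (ρB.subrepresentation (LinearMap.ker q.1) hle)))
    (hsurj : Function.Surjective (alpha L ⊤ σ tr ρB)) :
    Function.Surjective (alpha L ⊤ σ tr ρ) := by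
  have S : SES L (ρB.subrepresentation (LinearMap.ker q.1) hle) ρB ρ
      (LinearMap.ker q.1).subtype q.1 :=
    { i_equiv := fun g a => rfl
      p_equiv := fun g b => q.2 g trivial b
      inj := Subtype.val_injective
      surj := hq
      exact := by
        intro b
        constructor
        · intro hb
          exact ⟨⟨b, hb⟩, rfl⟩
        · rintro ⟨a, rfl⟩
          exact a.2
      smooth := hB }
  have hq2 : Function.Surjective (mapH2 L ⊤ ρB ρ q) :=
    S.mapH2_surjective_of_subsingleton ⊤ hH3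
  intro τ
  obtain ⟨φ₀, hφ₀⟩ := hsurj (τ ∘ₗ mapH2 L ⊤ ρB ρ q)
  have hkill : EHomOn.precomp σ (S.iHom ⊤).2 φ₀ = 0 := by
    apply hinj
    rw [map_zero]
    apply LinearMap.ext
    intro x
    rw [alpha_precomp, hφ₀, LinearMap.comp_apply, ← mapH2_comp]
    have h0 : (⟨q.1 ∘ₗ (S.iHom ⊤).1, EHomOn.comp_mem q.2 (S.iHom ⊤).2⟩ :
        EHomOn ⊤ (ρB.subrepresentation (LinearMap.ker q.1) hle) ρ) = 0 := by
      apply Subtype.ext
      apply LinearMap.ext
      intro a
      exact a.2
    rw [h0, map_zero]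
    simp
  have hker : ∀ b, q.1 b = 0 → φ₀.1 b = 0 := by
    intro b hb
    have := congrArg (fun f : EHomOn ⊤ (ρB.subrepresentation (LinearMap.ker q.1) hle) σ =>
      f.1 ⟨b, hb⟩) hkill
    exact this
  obtain ⟨s, hs⟩ := LinearMap.exists_rightInverse_of_surjective q.1
    (LinearMap.range_eq_top.mpr hq)
  have hs' : ∀ a, q.1 (s a) = a := fun a => by
    have := congrArg (fun f => f a) hs
    simpa using this
  have hfac : ∀ b, φ₀.1 (s (q.1 b)) = φ₀.1 b := by
    intro b
    have : φ₀.1 (s (q.1 b) - b) = 0 := hker _ (by rw [map_sub, hs', sub_self])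
    rw [map_sub, sub_eq_zero] at this
    exact this
  have hφ : φ₀.1 ∘ₗ s ∈ EHomOn ⊤ ρ σ := by
    intro g hg a
    obtain ⟨b, rfl⟩ := hq a
    rw [← q.2 g hg b]
    simp only [LinearMap.comp_apply]
    rw [hfac, hfac, φ₀.2 g hg b]
  refine ⟨⟨φ₀.1 ∘ₗ s, hφ⟩, ?_⟩
  apply LinearMap.ext
  intro x
  obtain ⟨y, rfl⟩ := hq2 x
  rw [← alpha_precomp]
  have h1 : EHomOn.precomp σ q.2 (⟨φ₀.1 ∘ₗ s, hφ⟩ : EHomOn ⊤ ρ σ) = φ₀ := by
    apply Subtype.ext
    apply LinearMap.ext
    intro b
    exact hfac b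
  rw [h1, hφ₀]
  rfl

end Field

end Fermat.Agent.PT
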