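/-
S55 (Poitou-Tate), F1(j): THE ABSTRACT DUALITY THEOREM `alpha_bijective`.
-/
import Fermat.Agent.PT.Duality.CoindFin
import Fermat.Agent.PT.Duality.Resol
import Fermat.Agent.PT.Duality.H3Triv
import Fermat.Agent.PT.Duality.H3Van

set_option autoImplicit false
set_option maxHeartbeats 400000

namespace Fermat.Agent.PT

variable {p : ℕ} [Fact p.Prime] {G : Type*} [Group G]
variable {A W : Type*} [AddCommGroup A] [Module (ZMod p) A] [AddCommGroup W] [Module (ZMod p) W]

/-- `H³(G, M) = 0` for all finite smooth `M`, under the hypotheses of the duality theorem. -/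
theorem subsingleton_H3_of_base (L : LevelSystem G) (σ : Representation (ZMod p) G W)
    (tr : H2 L ⊤ σ →ₗ[ZMod p] ZMod p) (G1 : Subgroup G) [G1.Normal] (hG1 : L.IsOpen G1)
    (hidx : ¬ p ∣ G1.index)
    (hbase : ∀ V : Subgroup G, L.IsOpen V → V ≤ G1 →
      Function.Bijective (alpha L ⊤ σ tr (coind L V (trivK (ZMod p) G))))
    [Module.Finite (ZMod p) A] (ρ : Representation (ZMod p) G A) (hρ : IsSmoothRep L ρ) :
    Subsingleton (H3 L ⊤ ρ) :=
  subsingleton_H3_of_triv L (fun V hV => Z3_le_B3_triv L σ tr G1 hG1 hidx hbase V hV) ρ hρ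

/-- **The abstract duality theorem.**  `G` a group with a level system `L`, `σ` a representation over
`F_p`, `tr : H²(G, σ) → F_p` any linear form, `G1` an open normal subgroup of index prime to `p`.
If `alpha : Hom_G(X, σ) → H²(G, X)^*`, `φ ↦ tr ∘ φ_*`, is bijective for `X = coind L V F_p`, for all
open `V ≤ G1`, then it is bijective for every finite smooth `F_p[G]`-module. -/
theorem alpha_bijective (L : LevelSystem G) (σ : Representation (ZMod p) G W)
    (tr : H2 L ⊤ σ →ₗ[ZMod p] ZMod p) (G1 : Subgroup G) [G1.Normal] (hG1 : L.IsOpen G1)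
    (hidx : ¬ p ∣ G1.index)
    (hbase : ∀ V : Subgroup G, L.IsOpen V → V ≤ G1 →
      Function.Bijective (alpha L ⊤ σ tr (coind L V (trivK (ZMod p) G))))
    [Module.Finite (ZMod p) A] (ρ : Representation (ZMod p) G A) (hρ : IsSmoothRep L ρ) :
    Function.Bijective (alpha L ⊤ σ tr ρ) := by
  refine ⟨alpha_injective L σ tr G1 hG1 (fun V hV hle => (hbase V hV hle).1) ρ hρ, ?_⟩
  obtain ⟨U0, hU0, hfix0⟩ := exists_level_trivial hρ
  obtain ⟨U1, hU1, hle1⟩ := hG1
  obtain ⟨U, hU, hUU0, hUU1⟩ := L.directed' U0 hU0 U1 hU1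
  have hUo : L.IsOpen U := ⟨U, hU, le_rfl⟩
  have hfix : ∀ u ∈ U, ρ u = 1 := fun u hu => hfix0 u (hUU0 hu)
  haveI := finite_cosetsIn_of_isOpen hUo
  haveI := finite_X0 L U hUo ρ
  let q : EHomOn ⊤ (coind L U ρ) ρ := ⟨coindTrace L U ρ, EHom.on (coindTrace_mem_EHom L U ρ) ⊤⟩
  have hle : ∀ g, LinearMap.ker q.1 ≤ (LinearMap.ker q.1).comap (coind L U ρ g) := by
    intro g x hx
    rw [Submodule.mem_comap, LinearMap.mem_ker, q.2 g trivial x, LinearMap.mem_ker.mp hx, map_zero]
  have hsm : IsSmoothRep (k := ZMod p) (A := ↥(LinearMap.ker q.1)) L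
      ((coind L U ρ).subrepresentation (LinearMap.ker q.1) hle) := by
    intro x
    obtain ⟨U', hU', h⟩ := isSmoothRep_coind L U ρ x.1
    exact ⟨U', hU', fun u hu => Subtype.ext (h u hu)⟩
  exact alpha_surjective_of_resolution L σ tr ρ (coind L U ρ) (isSmoothRep_coind L U ρ) q
    (coindTrace_surjective L U hUo ρ hfix) hle
    (subsingleton_H3_of_base L σ tr G1 ⟨U1, hU1, hle1⟩ hidx hbase _ hsm)
    (alpha_injective L σ tr G1 ⟨U1, hU1, hle1⟩ (fun V hV hle => (hbase V hV hle).1) _ hsm)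
    (alpha_bijective_coind L σ tr U ρ hfix (hbase U hUo (hUU1.trans hle1))).2

end Fermat.Agent.PT
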