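/-
S55 (Poitou-Tate), block F2 (E1): the connecting map `Hom_G(M, W) → H¹(G, M')`, `M' = M^*(χ)`, for
`0 → c → J → W → 0`, with explicit cocycles.   `c` = the character `χ` on `k`, `J = ∏ᵢ coind L (D i) c`.

For a `k`-linear `φt : M → J` put `thetaJ φt g = g ∘ φt ∘ g⁻¹ - φt : M → J` and
`thetaCoc i₀ φt g = Jev i₀ ∘ thetaJ φt g : M → k`.  If `π ∘ φt` is equivariant then
`thetaJ φt g = Jincl ∘ thetaCoc i₀ φt g`.
-/
import Fermat.Agent.PT.Duality.Defs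
import Fermat.Agent.PT.Coh.Inh
import Fermat.Agent.PT.Coh.Lift
import Fermat.Prelude.Def_GroupCohomology_Selmer

set_option autoImplicit false
set_option maxHeartbeats 400000

namespace Fermat.Agent.PT

variable {k : Type*} [Field k] {G : Type*} [Group G] {A : Type*} [AddCommGroup A] [Module k A]
variable {ι : Type*}
variable (L : LevelSystem G) (D : ι → Subgroup G) (c : Representation k G k)
  (ρ : Representation k G A)

/-- `g ∘ φt ∘ g⁻¹ - φt`. -/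
def thetaJ (φt : A →ₗ[k] (∀ i, X0 L (D i) c)) (g : G) : A →ₗ[k] (∀ i, X0 L (D i) c) :=
  Jrep L D c g ∘ₗ φt ∘ₗ ρ g⁻¹ - φt

/-- The cochain `g ↦ Jev i₀ ∘ (g ∘ φt ∘ g⁻¹ - φt)`, linear in `φt`. -/
def thetaCoc (i₀ : ι) : (A →ₗ[k] (∀ i, X0 L (D i) c)) →ₗ[k] (G → Module.Dual k A) where
  toFun φt g := Jev L D c i₀ ∘ₗ thetaJ L D c ρ φt g
  map_add' φ φ' := by
    funext g
    ext m
    simp [thetaJ]
    ring
  map_smul' a φ := by
    funext g
    ext m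
    simp [thetaJ]
    ring

lemma thetaCoc_apply (i₀ : ι) (φt : A →ₗ[k] (∀ i, X0 L (D i) c)) (g : G) (m : A) :
    thetaCoc L D c ρ i₀ φt g m
      = (φt (ρ g⁻¹ m) i₀ : G → k) g - (φt m i₀ : G → k) 1 := by
  simp [thetaCoc, thetaJ]

lemma Theta_thetaJ_apply (φt : A →ₗ[k] (∀ i, X0 L (D i) c)) (g : G) (m : A) :
    thetaJ L D c ρ φt g m = Jrep L D c g (φt (ρ g⁻¹ m)) - φt m := rfl

lemma Theta_thetaCoc_eq (i₀ : ι) (φt : A →ₗ[k] (∀ i, X0 L (D i) c)) (g : G) (m : A) :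
    thetaCoc L D c ρ i₀ φt g m = Jev L D c i₀ (thetaJ L D c ρ φt g m) := rfl

lemma Theta_twist_dual_apply (χ : G →* kˣ) (g : G) (f : Module.Dual k A) (m : A) :
    ρ.dual.twist χ g f m = (χ g : k) * f (ρ g⁻¹ m) := rfl

lemma Theta_rho_inv_self (g : G) (m : A) : ρ g⁻¹ (ρ g m) = m := by
  rw [← Module.End.mul_apply, ← map_mul, inv_mul_cancel, map_one, Module.End.one_apply]

/-- a level fixing the image of a linear map from a finite module to a smooth representation. -/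
lemma Theta_exists_level_fixing [Module.Finite k A] {B : Type*} [AddCommGroup B] [Module k B]
    {σ : Representation k G B} (hσ : IsSmoothRep L σ) (ψ : A →ₗ[k] B) :
    ∃ U ∈ L, ∀ u ∈ U, ∀ a, σ u (ψ a) = ψ a := by
  obtain ⟨S, hS⟩ := (Module.Finite.fg_top : (⊤ : Submodule k A).FG)
  obtain ⟨U, hU, h⟩ := hσ.exists_level_fixing ((S.finite_toSet).image ψ)
  refine ⟨U, hU, fun u hu a => ?_⟩
  have h1 : σ u ∘ₗ ψ = ψ := by
    refine LinearMap.ext_on hS fun x hx => ?_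
    exact h u hu _ ⟨x, hx, rfl⟩
  exact LinearMap.congr_fun h1 a

variable {L D c ρ}
variable (hc : IsSmoothRep L c) {χ : G →* kˣ} (hcχ : ∀ g a, c g a = (χ g : k) * a)

include hc in
/-- (T0) -/
theorem thetaJ_eq_Jincl (i₀ : ι) {φt : A →ₗ[k] (∀ i, X0 L (D i) c)}
    (hφ : Wpi L D c hc ∘ₗ φt ∈ EHomOn ⊤ ρ (Wrep L D c hc)) (g : G) (m : A) :
    thetaJ L D c ρ φt g m = Jincl L D c hc (thetaCoc L D c ρ i₀ φt g m) := by
  have h1 : thetaJ L D c ρ φt g m ∈ LinearMap.ker (Wpi L D c hc) := by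
    rw [LinearMap.mem_ker, Theta_thetaJ_apply, map_sub, sub_eq_zero,
      Wpi_mem L D c hc ⊤ g trivial]
    have h2 := hφ g trivial (ρ g⁻¹ m)
    rw [rho_self_inv_apply] at h2
    exact h2.symm
  rw [ker_Wpi] at h1
  obtain ⟨x, hx⟩ := h1
  rw [Theta_thetaCoc_eq, ← hx, Jev_Jincl]

include hc hcχ in
/-- (T1) cocycle condition for the action `ρ.dual.twist χ` on `Module.Dual k A`. -/
theorem thetaCoc_cocycle (i₀ : ι) {φt : A →ₗ[k] (∀ i, X0 L (D i) c)}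
    (hφ : Wpi L D c hc ∘ₗ φt ∈ EHomOn ⊤ ρ (Wrep L D c hc)) (g h : G) :
    thetaCoc L D c ρ i₀ φt (g * h) =
      ρ.dual.twist χ g (thetaCoc L D c ρ i₀ φt h) + thetaCoc L D c ρ i₀ φt g := by
  ext m
  have hinj : Function.Injective (Jincl L D c hc) :=
    Function.LeftInverse.injective (Jev_Jincl L D c hc i₀)
  apply hinj
  rw [LinearMap.add_apply, map_add, Theta_twist_dual_apply, ← hcχ,
    Jincl_mem L D c hc ⊤ g trivial, ← thetaJ_eq_Jincl hc i₀ hφ, ← thetaJ_eq_Jincl hc i₀ hφ,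
    ← thetaJ_eq_Jincl hc i₀ hφ]
  simp only [Theta_thetaJ_apply, map_sub, mul_inv_rev, map_mul, Module.End.mul_apply]
  abel

/-- (T2) smoothness: `thetaCoc φt (g u) = thetaCoc φt g` for `u` in a level fixing `A` and `φt(A)`
pointwise (directly from `thetaCoc_apply`; `A` is finite-dimensional, `ρ` and `J` are smooth). -/
theorem thetaCoc_smooth [Finite ι] [Module.Finite k A] (hρ : IsSmoothRep L ρ) (i₀ : ι)
    (φt : A →ₗ[k] (∀ i, X0 L (D i) c)) : Inh.LC1 L (thetaCoc L D c ρ i₀ φt) := by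
  obtain ⟨U₁, hU₁, h₁⟩ := Theta_exists_level_fixing L hρ (LinearMap.id : A →ₗ[k] A)
  obtain ⟨U₂, hU₂, h₂⟩ := Theta_exists_level_fixing L (isSmoothRep_coind L (D i₀) c)
    (LinearMap.proj i₀ ∘ₗ φt)
  obtain ⟨W, hW, le₁, le₂⟩ := L.directed' U₁ hU₁ U₂ hU₂
  refine ⟨W, hW, fun g s hs => ?_⟩
  ext m
  rw [thetaCoc_apply, thetaCoc_apply, mul_inv_rev, map_mul, Module.End.mul_apply]
  have e1 : ρ s⁻¹ (ρ g⁻¹ m) = ρ g⁻¹ m := h₁ s⁻¹ (U₁.inv_mem (le₁ hs)) _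
  rw [e1]
  have e2 := h₂ s (le₂ hs) (ρ g⁻¹ m)
  have e3 := congrArg (fun f : X0 L (D i₀) c => (f : G → k) g) e2
  simp only [coind_apply_coe, LinearMap.comp_apply, LinearMap.proj_apply] at e3
  rw [e3]

include hc hcχ in
/-- (T3) local triviality on `D i`, with `b = Jev i ∘ φt`. -/
theorem thetaCoc_local (i₀ i : ι) {φt : A →ₗ[k] (∀ i, X0 L (D i) c)}
    (hφ : Wpi L D c hc ∘ₗ φt ∈ EHomOn ⊤ ρ (Wrep L D c hc)) (d : G) (hd : d ∈ D i) :
    thetaCoc L D c ρ i₀ φt d =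
      ρ.dual.twist χ d (Jev L D c i ∘ₗ φt) - Jev L D c i ∘ₗ φt := by
  ext m
  have h1 := congrArg (Jev L D c i) (thetaJ_eq_Jincl hc i₀ hφ d m)
  rw [Jev_Jincl, Theta_thetaJ_apply, map_sub, Jev_mem L D c i d hd, hcχ] at h1
  rw [← h1, LinearMap.sub_apply, Theta_twist_dual_apply]
  rfl

include hc hcχ in
/-- (T4) a lift of `0` gives a coboundary. -/
theorem thetaCoc_of_Wpi_comp_eq_zero (i₀ : ι) {φt : A →ₗ[k] (∀ i, X0 L (D i) c)}
    (hφ : Wpi L D c hc ∘ₗ φt = 0) (g : G) :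
    thetaCoc L D c ρ i₀ φt g =
      ρ.dual.twist χ g (Jev L D c i₀ ∘ₗ φt) - Jev L D c i₀ ∘ₗ φt := by
  ext m
  have h1 : ∀ a, φt a = Jincl L D c hc (Jev L D c i₀ (φt a)) := by
    intro a
    have h2 : φt a ∈ LinearMap.ker (Wpi L D c hc) := LinearMap.congr_fun hφ a
    rw [ker_Wpi] at h2
    obtain ⟨x, hx⟩ := h2
    rw [← hx, Jev_Jincl]
  rw [Theta_thetaCoc_eq, Theta_thetaJ_apply, map_sub, LinearMap.sub_apply, Theta_twist_dual_apply]
  congr 1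
  rw [h1 (ρ g⁻¹ m), ← Jincl_mem L D c hc ⊤ g trivial, Jev_Jincl, hcχ]
  rfl

include hc hcχ in
/-- (T5) if the cocycle is the coboundary of `e`, then `φt - Jincl ∘ e` is equivariant. -/
theorem sub_Jincl_mem_EHomOn (i₀ : ι) {φt : A →ₗ[k] (∀ i, X0 L (D i) c)}
    (hφ : Wpi L D c hc ∘ₗ φt ∈ EHomOn ⊤ ρ (Wrep L D c hc)) (e : Module.Dual k A)
    (he : ∀ g, thetaCoc L D c ρ i₀ φt g = ρ.dual.twist χ g e - e) :
    φt - Jincl L D c hc ∘ₗ e ∈ EHomOn ⊤ ρ (Jrep L D c) := by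
  intro g _ a
  have h1 := thetaJ_eq_Jincl hc i₀ hφ g (ρ g a)
  rw [he g, LinearMap.sub_apply, Theta_twist_dual_apply, Theta_thetaJ_apply, Theta_rho_inv_self,
    map_sub, ← hcχ, Jincl_mem L D c hc ⊤ g trivial] at h1
  simp only [LinearMap.sub_apply, LinearMap.comp_apply, map_sub]
  rw [sub_eq_sub_iff_add_eq_add] at h1 ⊢
  rw [add_comm, ← h1, add_comm]

/-- (T7) an equivariant `φt` gives the zero cocycle. -/
theorem thetaCoc_of_mem_EHomOn (i₀ : ι) {φt : A →ₗ[k] (∀ i, X0 L (D i) c)}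
    (hφ : φt ∈ EHomOn ⊤ ρ (Jrep L D c)) : thetaCoc L D c ρ i₀ φt = 0 := by
  funext g
  ext m
  rw [Theta_thetaCoc_eq, Theta_thetaJ_apply, ← hφ g trivial, rho_self_inv_apply, sub_self, map_zero]
  rfl

end Fermat.Agent.PT
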