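/-
S55 (Poitou-Tate), block F2 (E1): surjectivity of the connecting map of `Duality/Theta.lean` onto the
locally trivial classes, and Frobenius reciprocity for `J`.
-/
import Fermat.Agent.PT.Duality.Theta

set_option autoImplicit false
set_option maxHeartbeats 400000

namespace Fermat.Agent.PT

variable {k : Type*} [Field k] {G : Type*} [Group G] {A : Type*} [AddCommGroup A] [Module k A]
variable {ι : Type*}
variable {L : LevelSystem G} {D : ι → Subgroup G} {c : Representation k G k}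
  {ρ : Representation k G A}

/-- `m ↦ (x ↦ f x (ρ x m))`. -/
def ThetaSurj_lin (ρ : Representation k G A) (f : G → Module.Dual k A) : A →ₗ[k] (G → k) :=
  LinearMap.pi fun x => f x ∘ₗ ρ x

lemma ThetaSurj_lin_apply (f : G → Module.Dual k A) (m : A) (x : G) :
    ThetaSurj_lin ρ f m x = f x (ρ x m) := rfl

lemma ThetaSurj_lin_mem (hρ : ∃ U ∈ L, ∀ u ∈ U, ρ u = 1) {V : Subgroup G}
    {f : G → Module.Dual k A} (hsm : Inh.LC1 L f)
    (heq : ∀ d ∈ V, ∀ x y, f (d * x) (ρ d y) = c d (f x y)) (m : A) :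
    ThetaSurj_lin ρ f m ∈ X0 L V c := by
  obtain ⟨U, hU, hρU⟩ := hρ
  obtain ⟨U', hU', hf⟩ := hsm
  obtain ⟨W, hW, h1, h2⟩ := L.directed' U hU U' hU'
  refine mem_X0.mpr ⟨fun d hd x => ?_, W, hW, fun x u hu => ?_⟩
  · rw [ThetaSurj_lin_apply, ThetaSurj_lin_apply, map_mul, Module.End.mul_apply, heq d hd]
  · rw [ThetaSurj_lin_apply, ThetaSurj_lin_apply, map_mul, Module.End.mul_apply, hρU u (h1 hu),
      Module.End.one_apply, hf x u (h2 hu)]

/-- the map `M → J`, `m ↦ (x ↦ f i x (ρ x m))ᵢ`. -/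
def ThetaSurj_phi (f : ι → G → Module.Dual k A)
    (hf : ∀ i m, ThetaSurj_lin ρ (f i) m ∈ X0 L (D i) c) : A →ₗ[k] (∀ i, X0 L (D i) c) :=
  LinearMap.pi fun i => LinearMap.codRestrict (X0 L (D i) c) (ThetaSurj_lin ρ (f i)) (hf i)

lemma ThetaSurj_phi_apply (f : ι → G → Module.Dual k A)
    (hf : ∀ i m, ThetaSurj_lin ρ (f i) m ∈ X0 L (D i) c) (m : A) (i : ι) (x : G) :
    (ThetaSurj_phi f hf m i : G → k) x = f i x (ρ x m) := rfl

lemma ThetaSurj_twist_apply {χ : G →* kˣ} (g : G) (f : Module.Dual k A) (y : A) :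
    ρ.dual.twist χ g f (ρ g y) = (χ g : k) * f y := by
  rw [Representation.twist_apply_apply, LinearMap.smul_apply, Representation.dual_apply,
    Module.Dual.transpose_apply, LinearMap.comp_apply, ← Module.End.mul_apply, ← map_mul,
    inv_mul_cancel, map_one, Module.End.one_apply, smul_eq_mul]

variable (hc : IsSmoothRep L c) {χ : G →* kˣ} (hcχ : ∀ g a, c g a = (χ g : k) * a)

include hc hcχ in
/-- (T6) surjectivity: a smooth cocycle `a : G → M'` which is the coboundary of `b i` on `D i` for all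
`i` is `thetaCoc φt` with `φt m i x = (a x + b i) (ρ x m)`. -/
theorem exists_thetaCoc_eq (hρ : ∃ U ∈ L, ∀ u ∈ U, ρ u = 1) (i₀ : ι)
    (a : G → Module.Dual k A) (hsm : Inh.LC1 L a)
    (hcoc : ∀ g h, a (g * h) = ρ.dual.twist χ g (a h) + a g)
    (b : ι → Module.Dual k A) (hb : ∀ i, ∀ d ∈ D i, a d = ρ.dual.twist χ d (b i) - b i) :
    ∃ φt : A →ₗ[k] (∀ i, X0 L (D i) c),
      Wpi L D c hc ∘ₗ φt ∈ EHomOn ⊤ ρ (Wrep L D c hc) ∧ thetaCoc L D c ρ i₀ φt = a := by
  have hmem : ∀ i m, ThetaSurj_lin ρ (fun x => a x + b i) m ∈ X0 L (D i) c := by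
    intro i m
    refine ThetaSurj_lin_mem hρ ?_ ?_ m
    · obtain ⟨U, hU, h⟩ := hsm
      exact ⟨U, hU, fun g s hs => by simp only [h g s hs]⟩
    · intro d hd x y
      have e : a (d * x) + b i = ρ.dual.twist χ d (a x + b i) := by
        rw [hcoc, hb i d hd, map_add]
        abel
      rw [e, ThetaSurj_twist_apply, hcχ]
  have ha1 : a 1 = 0 := by
    have h := hcoc 1 1
    rw [mul_one, map_one, Module.End.one_apply] at h
    exact left_eq_add.mp h
  refine ⟨ThetaSurj_phi (fun i x => a x + b i) hmem, ?_, ?_⟩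
  · rw [mem_EHomOn_top]
    intro g m
    rw [LinearMap.comp_apply, LinearMap.comp_apply, ← Wpi_mem L D c hc ⊤ g trivial, ← sub_eq_zero,
      ← map_sub, ← LinearMap.mem_ker, ker_Wpi]
    refine ⟨-(a g (ρ g m)), ?_⟩
    funext i
    apply Subtype.ext
    funext x
    rw [Jincl_apply_coe]
    change _ = (ThetaSurj_phi (fun i x => a x + b i) hmem (ρ g m) i : G → k) x
      - (Jrep L D c g (ThetaSurj_phi (fun i x => a x + b i) hmem m) i : G → k) x
    rw [Jrep_apply_coe, ThetaSurj_phi_apply, ThetaSurj_phi_apply, hcoc x g, map_mul,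
      Module.End.mul_apply, LinearMap.add_apply, LinearMap.add_apply, LinearMap.add_apply,
      ThetaSurj_twist_apply, hcχ]
    ring
  · funext g
    ext m
    rw [thetaCoc_apply, ThetaSurj_phi_apply, ThetaSurj_phi_apply, ha1, map_one,
      Module.End.one_apply, ← Module.End.mul_apply, ← map_mul, mul_inv_cancel, map_one,
      Module.End.one_apply, LinearMap.add_apply, LinearMap.add_apply, LinearMap.zero_apply]
    ring

/-- Frobenius reciprocity (surjectivity): a family of `D i`-equivariant `ψ i : M → c` comes from an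
equivariant `φ : M → J`, `φ m i x = ψ i (ρ x m)`. -/
theorem exists_EHomOn_Jrep (hρ : ∃ U ∈ L, ∀ u ∈ U, ρ u = 1)
    (ψ : ∀ i, EHomOn (D i) ρ c) :
    ∃ φ : EHomOn ⊤ ρ (Jrep L D c), ∀ i, Jev L D c i ∘ₗ φ.1 = (ψ i).1 := by
  have hmem : ∀ i m, ThetaSurj_lin ρ (fun _ => (ψ i).1) m ∈ X0 L (D i) c := by
    intro i m
    refine ThetaSurj_lin_mem hρ ?_ ?_ m
    · obtain ⟨U, hU⟩ := L.nonempty'
      exact ⟨U, hU, fun _ _ _ => rfl⟩
    · intro d hd x y
      exact (ψ i).2 d hd y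
  refine ⟨⟨ThetaSurj_phi (fun i _ => (ψ i).1) hmem, ?_⟩, fun i => ?_⟩
  · rw [mem_EHomOn_top]
    intro g m
    funext i
    apply Subtype.ext
    funext x
    rw [Jrep_apply_coe, ThetaSurj_phi_apply, ThetaSurj_phi_apply, map_mul, Module.End.mul_apply]
  · ext m
    rw [LinearMap.comp_apply, Jev_apply, ThetaSurj_phi_apply, map_one, Module.End.one_apply]

end Fermat.Agent.PT
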